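import Fermat.Agent.Ribet.H868.NodeSym
import Fermat.Agent.Ribet.H132.NodeValLeaf
import Fermat.Agent.Ribet.H704.I6Inst
import Fermat.Agent.A2.H609.ChartPrep

/-!
# RIBET row 38, WALL-p / WALL-q: purity at a node from slope `0` on ONE branch (helper868)

`R` a node ring (`H704.I6.IsNode 𝔭₁ 𝔭₂ π x y`), `K = Frac R`, `u ∈ Kˣ` horizontally `m`-divisible
(valuation form `I6.HorDivVal`), a unit on both components (`ValAt … u 0`).

* `nodePure_both` : if `m ∣ slope₁ u` and `m ∣ slope₂ u`, then `u · d ^ m ∈ Rˣ` for some `d ∈ Kˣ`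
  which is a unit on both components (NO unit pair, NO thickness).
  This is `A2.H609.exists_unit_mul_pow_of_node` for fractions, with the branch hypothesis (H2) in
  slope form.
* `nodePure` : `NodePureStatement` — the same from `m ∣ slope₂ u` ALONE, given a unit pair of any
  exponent `N > 0` (`nodeSymFrac`: `m ∣ slope₁ + slope₂`).

Consumers: the passage "slopes `0` at the supersingular points ⇒ `NodeGen` / `FinGen`"
(with the chart dictionary `u · d ^ m ∈ B_nˣ ⇒ m ∣ ord_Q (red u)`).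
-/

set_option autoImplicit false
set_option linter.unusedSectionVars false
set_option linter.style.haveILetI false

namespace Fermat.Agent.Ribet.H868

open IsLocalRing Fermat.Agent.Ribet.H704 Fermat.Agent.A2

/-- **NODE-PURE**: purity at a node from slope `0` on one branch. -/
def NodePureStatement : Prop :=
  ∀ (R K : Type) [CommRing R] [IsDomain R] [IsIntegrallyClosed R] [IsNoetherianRing R]
    [IsLocalRing R] [Field K] [Algebra R K] [IsFractionRing R K]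
    (𝔭₁ 𝔭₂ : Ideal R) (π x y : R), I6.IsNode 𝔭₁ 𝔭₂ π x y →
    ∀ (N : ℕ) (D D' : R), 0 < N → I6.IsUnitPair 𝔭₁ 𝔭₂ π D D' N →
    ∀ (m : ℕ), m ≠ 0 → ∀ (u : K), I6.HorDivVal K π m u →
      I6.ValAt K 𝔭₁ π u 0 → I6.ValAt K 𝔭₂ π u 0 →
      ∀ s₂ : ℤ, I6.SlopeAt K 𝔭₂ π y u s₂ → (m : ℤ) ∣ s₂ →
      ∃ (d : K) (ε : Rˣ), d ≠ 0 ∧ u * d ^ m = algebraMap R K (ε : R) ∧
        I6.ValAt K 𝔭₁ π d 0 ∧ I6.ValAt K 𝔭₂ π d 0

section Main

variable {R K : Type*} [CommRing R] [IsDomain R] [IsIntegrallyClosed R] [IsNoetherianRing R]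
  [IsLocalRing R] [Field K] [Algebra R K] [IsFractionRing R K]

/-- (H2) of `A2.H609.exists_unit_mul_pow_of_node` from an order divisible by `m`. -/
theorem exists_associated_pow_of_ordOn {𝔭 : Ideal R} {ϖ a : R} {m k : ℕ} (hk : m ∣ k)
    (h : I6.OrdOn 𝔭 ϖ a k) :
    ∃ v : R ⧸ 𝔭, Associated (v ^ m) (Ideal.Quotient.mk 𝔭 a) := by
  obtain ⟨l, rfl⟩ := hk
  refine ⟨(Ideal.Quotient.mk 𝔭 ϖ) ^ l, ?_⟩
  rw [← pow_mul, mul_comm l m]
  exact h.symm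

/-- **Purity at a node, both slopes divisible by `m`** (fraction form, no unit pair). -/
theorem nodePure_both {𝔭₁ 𝔭₂ : Ideal R} {π x y : R} (hN : I6.IsNode 𝔭₁ 𝔭₂ π x y)
    {m : ℕ} (hm : m ≠ 0) {u : K} (hdiv : I6.HorDivVal K π m u)
    (hv₁ : I6.ValAt K 𝔭₁ π u 0) (hv₂ : I6.ValAt K 𝔭₂ π u 0)
    {s₁ s₂ : ℤ} (hs₁ : I6.SlopeAt K 𝔭₁ π x u s₁) (hs₂ : I6.SlopeAt K 𝔭₂ π y u s₂)
    (h₁ : (m : ℤ) ∣ s₁) (h₂ : (m : ℤ) ∣ s₂) :
    ∃ (d : K) (ε : Rˣ), d ≠ 0 ∧ u * d ^ m = algebraMap R K (ε : R) ∧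
      I6.ValAt K 𝔭₁ π d 0 ∧ I6.ValAt K 𝔭₂ π d 0 := by
  haveI := hN.prime₁
  haveI := hN.prime₂
  haveI : IsDiscreteValuationRing (R ⧸ 𝔭₁) :=
    H403.isDVR_of_unif_403 𝔭₁ hN.hx₁ hN.nonunit₁ hN.unif₁
  haveI : IsDiscreteValuationRing (R ⧸ 𝔭₂) :=
    H403.isDVR_of_unif_403 𝔭₂ hN.hy₂ hN.nonunit₂ hN.unif₂
  have hinj : Function.Injective (algebraMap R K) := IsFractionRing.injective R K
  have hb₁ := H132.branchData_left hN
  have hb₂ := H132.branchData_right hN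
  have hu0 : u ≠ 0 := H132.valAt_ne_zero hb₁.vert hv₁
  obtain ⟨a₁, b₁, ha₁, hb₁', hab₁⟩ := hv₁
  obtain ⟨a₂, b₂, ha₂, hb₂', hab₂⟩ := hv₂
  rw [zpow_zero, one_mul] at hab₁ hab₂
  -- a common denominator outside both branches
  obtain ⟨a, e, he₁, he₂, hae⟩ := H609.exists_common_denominator (p₁ := 𝔭₁) (p₂ := 𝔭₂)
    (u := u) ⟨a₁, b₁, hb₁', hab₁⟩ ⟨a₂, b₂, hb₂', hab₂⟩
  have ha_not : ∀ (𝔭 : Ideal R), 𝔭.IsPrime → ∀ a' b' : R, a' ∉ 𝔭 → e ∉ 𝔭 →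
      u * algebraMap R K b' = algebraMap R K a' → a ∉ 𝔭 := by
    intro 𝔭 h𝔭 a' b' ha' he hab' ha
    have e1 : a * b' = a' * e := by
      apply hinj
      rw [map_mul, map_mul, ← hae, ← hab']
      ring
    have : a' * e ∈ 𝔭 := e1 ▸ 𝔭.mul_mem_right _ ha
    rcases h𝔭.mem_or_mem this with h | h
    · exact ha' h
    · exact he h
  have haN₁ : a ∉ 𝔭₁ := ha_not 𝔭₁ inferInstance a₁ b₁ ha₁ he₁ hab₁
  have haN₂ : a ∉ 𝔭₂ := ha_not 𝔭₂ inferInstance a₂ b₂ ha₂ he₂ hab₂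
  -- the normalised element `u' = u e ^ m ∈ R`
  set u' : R := a * e ^ (m - 1) with hu'def
  have hu' : algebraMap R K u' = u * algebraMap R K e ^ m := by
    rw [hu'def, map_mul, map_pow, ← hae, mul_assoc, mul_pow_sub_one hm]
  have hu'₁ : u' ∉ 𝔭₁ := fun h =>
    (Ideal.IsPrime.mem_or_mem inferInstance h).elim haN₁
      (fun h' => he₁ (Ideal.IsPrime.mem_of_pow_mem inferInstance _ h'))
  have hu'₂ : u' ∉ 𝔭₂ := fun h =>
    (Ideal.IsPrime.mem_or_mem inferInstance h).elim haN₂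
      (fun h' => he₂ (Ideal.IsPrime.mem_of_pow_mem inferInstance _ h'))
  have hhor : I6.HorDiv π m u' := H132.horDiv_of_divisible hN hm hu0 (b := e) hu' hdiv
  -- orders of `u'` on the branches
  obtain ⟨k₁, hk₁⟩ := hN.unif₁ u' hu'₁
  obtain ⟨k₂, hk₂⟩ := hN.unif₂ u' hu'₂
  obtain ⟨t₁, ht₁⟩ := hN.unif₁ e he₁
  obtain ⟨t₂, ht₂⟩ := hN.unif₂ e he₂
  have hdvd : ∀ {𝔭 𝔮 : Ideal R} {ϖ : R} (hb : H132.BranchData π 𝔭 𝔮 ϖ) {s : ℤ} {k t : ℕ},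
      I6.SlopeAt K 𝔭 π ϖ u s → (m : ℤ) ∣ s → u' ∉ 𝔭 → e ∉ 𝔭 → I6.OrdOn 𝔭 ϖ u' k →
      I6.OrdOn 𝔭 ϖ e t → m ∣ k := by
    intro 𝔭 𝔮 ϖ hb s k t hs hms hu'p hep hk ht
    have S1 := H132.slopeAt_of_ordOn (K := K) hb hu'p hk
    have S2 := H132.slopeAt_mul hb hs
      (H132.slopeAt_pow hb (H132.slopeAt_of_ordOn (K := K) hb hep ht) m)
    rw [← hu'] at S2
    have e1 := H132.slopeAt_unique hb S1 S2
    have : (m : ℤ) ∣ (k : ℤ) := by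
      rw [e1]
      exact dvd_add hms (Dvd.intro _ rfl)
    exact Int.natCast_dvd_natCast.mp this
  have hmk₁ : m ∣ k₁ := hdvd hb₁ hs₁ h₁ hu'₁ he₁ hk₁ ht₁
  have hmk₂ : m ∣ k₂ := hdvd hb₂ hs₂ h₂ hu'₂ he₂ hk₂ ht₂
  obtain ⟨f, ε, hf⟩ := H609.exists_unit_mul_pow_of_node hm 𝔭₁ 𝔭₂ hN.inf_eq hN.sup_eq hu'₁ hu'₂
    hhor (exists_associated_pow_of_ordOn hmk₁ hk₁) (exists_associated_pow_of_ordOn hmk₂ hk₂)
  have hf_not : ∀ (𝔭 : Ideal R), 𝔭.IsPrime → u' ∉ 𝔭 → f ∉ 𝔭 := by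
    intro 𝔭 _ hu'p hfp
    apply hu'p
    rw [hf]
    exact 𝔭.mul_mem_left _ (Ideal.pow_mem_of_mem _ hfp _ (Nat.pos_of_ne_zero hm))
  have hf₁ : f ∉ 𝔭₁ := hf_not 𝔭₁ inferInstance hu'₁
  have hf₂ : f ∉ 𝔭₂ := hf_not 𝔭₂ inferInstance hu'₂
  have hf0 : algebraMap R K f ≠ 0 := by
    rw [Ne, map_eq_zero_iff _ hinj]
    rintro rfl
    exact hf₁ 𝔭₁.zero_mem
  have he0 : algebraMap R K e ≠ 0 := by
    rw [Ne, map_eq_zero_iff _ hinj]
    rintro rfl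
    exact he₁ 𝔭₁.zero_mem
  refine ⟨algebraMap R K e * (algebraMap R K f)⁻¹, ε, mul_ne_zero he0 (inv_ne_zero hf0), ?_, ?_,
    ?_⟩
  · have h1 : u * algebraMap R K e ^ m = algebraMap R K (ε : R) * algebraMap R K f ^ m := by
      rw [← hu', hf, map_mul, map_pow]
    rw [mul_pow, inv_pow, ← mul_assoc, h1]
    field_simp
  · have := H132.valAt_mul hb₁.vert (H132.valAt_of_notMem (K := K) hb₁.vert he₁)
      (H132.valAt_inv hb₁.vert (H132.valAt_of_notMem (K := K) hb₁.vert hf₁))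
    simpa using this
  · have := H132.valAt_mul hb₂.vert (H132.valAt_of_notMem (K := K) hb₂.vert he₂)
      (H132.valAt_inv hb₂.vert (H132.valAt_of_notMem (K := K) hb₂.vert hf₂))
    simpa using this

end Main

/-- **NODE-PURE** (slope `0` on ONE branch suffices, given a unit pair). -/
theorem nodePure : NodePureStatement := by
  intro R K _ _ _ _ _ _ _ _ 𝔭₁ 𝔭₂ π x y hN N D D' hNpos hDD m hm u hdiv hv₁ hv₂ s₂ hs₂ h₂
  have hb₁ := H132.branchData_left hN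
  have hu0 : u ≠ 0 := H132.valAt_ne_zero hb₁.vert hv₁
  obtain ⟨s₁, hs₁⟩ := H132.exists_slopeAt (K := K) hb₁ hu0
  have hsym := nodeSymFrac R K 𝔭₁ 𝔭₂ π x y hN N D D' hNpos hDD m hm u hu0
    (H132.horDivFrac_of_horDivVal hN hm hu0 hdiv) s₁ s₂ hs₁ hs₂
  have h₁ : (m : ℤ) ∣ s₁ := (Int.dvd_add_left h₂).mp hsym
  exact nodePure_both hN hm hdiv hv₁ hv₂ hs₁ hs₂ h₁ h₂

end Fermat.Agent.Ribet.H868
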