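import Fermat.Agent.Ribet.H868.CoreOutQTop
import Fermat.Agent.Ribet.H765.IAOldEis

/-!
# RIBET row 37: CORE-OUT-q, structural form at good levels (helper868)

**`coreOutQStructGood : H765.CoreOutQStructGoodStatement`** (VERBATIM, no eigen hypothesis),
unconditional.
-/

set_option autoImplicit false
set_option linter.unusedSectionVars false
set_option synthInstance.maxHeartbeats 400000
set_option maxHeartbeats 1600000

noncomputable section

namespace Fermat.Agent.Ribet.H868

open AlgebraicCurve ModularCurve HahnSeries
open Fermat.Agent.S24 Fermat.Agent.Ribet.H884 Fermat.Agent.Ribet.H158.WallQ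
open Fermat.Agent.Ribet.Spec

/-- **CORE-OUT-q, structural form, good levels**, unconditional. -/
theorem coreOutQStructGood : Fermat.Agent.Ribet.H765.CoreOutQStructGoodStatement := by
  intro p n q M' _ _ _ hW A hA x hnew hfix
  have hcop : Nat.Coprime 12 (p ^ n) :=
    Nat.Coprime.pow_right n (coprime_twelve868 hW.p_prime hW.five_le)
  have hAux : (q = 3 → 2 ∣ M') ∧ (q = 2 → 3 ∣ M') := by
    refine ⟨fun h3 => ?_, fun h2 => absurd h2 hW.q_ne_two⟩
    rcases hW.good with h5 | ⟨-, h2⟩
    · omega
    · exact h2
  exact slopePropQM_of_fixed (p ^ n) q M' (pow_pos hW.p_prime.pos n) hcop hW.q_prime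
    hW.not_dvd hAux A hA x hnew.1 hfix

end Fermat.Agent.Ribet.H868

end
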