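import Fermat.Agent.A2.Spec
import Fermat.Agent.S36.H756.WireAbs
import Fermat.Agent.S36.H756.DescPic
import Fermat.Agent.A2.T1.H669.T2
import Fermat.Agent.A2.IF.H429.Inertia
import Fermat.Agent.S18.H504.ConstF
import Fermat.Agent.S37.H868.FullC
import Fermat.Agent.Ribet.H884.SlopeSpec

/-!
# RIBET rows 37/38, TAME package: descent of the Kummer generator to the inertia field
  (helper868)

`A` a valuation subring of `ℚ̄`, `I = A.inertiaSubgroupIn ℚ`, `E = ℚ̄^I` the inertia field
(`A2.IF.H429.inertiaField A`).  An `m`-torsion class `x ∈ J₀(N)(ℚ̄)` fixed by `I` has a Kummer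
generator defined over `E`:

* `exists_fixed_kummerGen` : `∃ y ∈ F_{N,E}ˣ`, `IsKummerGen N m (ι y) x` and
  `A2.DivisibleDiv E m y`.

Inputs: `S36.H756.exists_fixed_kummer_rep` (Hilbert 90 on Kummer cocycles),
`S36.H756.exists_iota_eq_of_fixed` (fixed functions descend), `A2.T1.H669.divisibleDiv_of_ord`.
Also `IsKummerGen.const_mul868` (a constant multiple of a Kummer generator is one).
-/

set_option autoImplicit false
set_option synthInstance.maxHeartbeats 400000
set_option maxHeartbeats 1000000
set_option linter.unusedSectionVars false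
set_option linter.style.haveILetI false

noncomputable section

namespace Fermat.Agent.Ribet.H868

open AlgebraicCurve ModularCurve HahnSeries
open Fermat.Agent.S24 Fermat.Agent.Ribet.H884
open Fermat.Agent.A2.T1.H669 (iota)
open Fermat.Agent.A2.IF.H429 (inertiaField)

variable (N : ℕ) [NeZero N]

/-- A constant multiple of a Kummer generator is a Kummer generator. -/
theorem IsKummerGen.const_mul868 {m : ℕ} {f : FF N} {x : JZero N} (h : IsKummerGen N m f x)
    {c : Kbar} (hc : c ≠ 0) : IsKummerGen N m (algebraMap Kbar (FF N) c * f) x := by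
  obtain ⟨hf, D, hD, hord⟩ := h
  have hcK : algebraMap Kbar (FF N) c ≠ 0 := by simpa using hc
  refine ⟨mul_ne_zero hcK hf, D, hD, fun v => ?_⟩
  rw [v.ord_mul hcK hf, Fermat.Agent.S36.H756.ord_const_eq_zero, zero_add, hord]

/-- **Descent to the inertia field** (the inertia field written as a fixed field). -/
theorem exists_fixed_kummerGen_aux (m : ℕ) (A : ValuationSubring Kbar) (x : JZero N)
    (hx : m • x = 0) (hfix : ∀ σ ∈ A.inertiaSubgroupIn ℚ, σ • x = x) :
    ∃ y : laurentBaseChange (IntermediateField.fixedField (A.inertiaSubgroupIn ℚ))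
        (modularFunctionFieldFull N),
      y ≠ 0 ∧ IsKummerGen N m (iota (IntermediateField.fixedField (A.inertiaSubgroupIn ℚ))
        (modularFunctionFieldFull N) y) x ∧
      Fermat.Agent.A2.DivisibleDiv (IntermediateField.fixedField (A.inertiaSubgroupIn ℚ)) m y := by
  haveI : HasPrincipalDivisors Kbar (laurentBaseChange Kbar (modularFunctionFieldFull N)) :=
    Fermat.Agent.S37.H868.hpd_bar Kbar N
  have hconst : Fermat.Agent.S36.H756.ConstOfOrdZero Kbar
      (laurentBaseChange Kbar (modularFunctionFieldFull N)) := by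
    intro u hu h
    obtain ⟨c, hc⟩ := Fermat.Agent.S18.H504.constOfOrdZero_modularFunctionFieldBar N u hu h
    exact ⟨c, hc.symm⟩
  obtain ⟨D, f, hf, hDx, hord, hfixed⟩ :=
    Fermat.Agent.S36.H756.exists_fixed_kummer_rep (F₀ := modularFunctionFieldFull N) hconst
      (A.inertiaSubgroupIn ℚ) m x hx hfix
  obtain ⟨y, hy⟩ := Fermat.Agent.S36.H756.exists_iota_eq_of_fixed (A.inertiaSubgroupIn ℚ) f hfixed
  have hy0 : y ≠ 0 := by
    rintro rfl
    rw [map_zero] at hy
    exact hf hy.symm
  refine ⟨y, hy0, ⟨by rw [hy]; exact hf, D, hDx, fun v => by rw [hy]; exact hord v⟩, ?_⟩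
  refine Fermat.Agent.A2.T1.H669.divisibleDiv_of_ord (IntermediateField.fixedField
    (A.inertiaSubgroupIn ℚ)) (modularFunctionFieldFull N) m y hy0 fun v => ?_
  rw [hy, hord v]
  exact dvd_mul_right _ _

/-- **Descent to the inertia field.** -/
theorem exists_fixed_kummerGen (m : ℕ) (A : ValuationSubring Kbar) (x : JZero N)
    (hx : m • x = 0) (hfix : ∀ σ ∈ A.inertiaSubgroupIn ℚ, σ • x = x) :
    ∃ y : laurentBaseChange (inertiaField A) (modularFunctionFieldFull N),
      y ≠ 0 ∧ IsKummerGen N m (iota (inertiaField A) (modularFunctionFieldFull N) y) x ∧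
      Fermat.Agent.A2.DivisibleDiv (inertiaField A) m y :=
  exists_fixed_kummerGen_aux N m A x hx hfix

end Fermat.Agent.Ribet.H868

end
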