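import Fermat.Agent.Ribet.H158.WallQEis
import Fermat.Agent.A2.Mod.Asm
import Fermat.Agent.A2.Alg.Spec

/-!
# RIBET rows 37/38: the slope dictionary in PURE form, TWO primes (helper868; FROZEN Prop)

`H704.CoreOut.DictPureStatement` (row 38) is stated for ONE prime `p` (residue characteristic of
`A` = exponent of the purity).  Nothing in its proof uses that coincidence.  The wall at `q ≠ p`
(row 37, `H158.WallQ.CoreOutQGoodStatement`) needs the same statement with

* residue prime `q`  (`A` over `q`, level `M' * q`, model `A2.Mod.Setting A E M' q w`),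
* exponent `m` ANY positive integer (`m = p ^ n` in the application).

`DictPureQStatement` : purity with exponent `m` at every closed point of the special fibre of the
FINITE chart `Bf = chartAlg (x)`, `x = j · j_q`, at a good level `E`
⟹ `H158.WallQ.NodeGenQ m q M' A` (both reductions lie in `k(X₀(M'))` and have `m`-divisible orders
at the non-cuspidal places).  `H704.CoreOut.DictPureStatement` is the case `m = q`.
-/

set_option autoImplicit false
set_option synthInstance.maxHeartbeats 400000
set_option maxHeartbeats 1000000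
set_option linter.unusedSectionVars false

noncomputable section

namespace Fermat.Agent.Ribet.H868

open AlgebraicCurve ModularCurve HahnSeries
open Fermat.Agent.S24 Fermat.Agent.A2.H708 Fermat.Agent.A2.H528
open Fermat.Agent.Ribet.Spec Fermat.Agent.Ribet.H884 Fermat.Agent.Ribet.H158.WallQ
open Fermat.Agent.A2.Mod

/-- `G ∈ F_E` (level `M' * q`) is **pure with exponent `m` at the closed point `n`** of the finite
chart `Bf = chartAlg (x)`, `x = j · j_q`: `G · w ^ a · d ^ m` is a unit of `(Bf)_n`. -/
def PureAtPtQ (A : ValuationSubring Kbar) (E : IntermediateField ℚ Kbar) (M' q m : ℕ)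
    [NeZero M'] [NeZero q] (w : RE A E) (G : FE E (M' * q))
    (n : Ideal (chartAlg A E (M' * q) (xE E M' q))) : Prop :=
  ∃ (d : FE E (M' * q)) (a : ℤ), d ≠ 0 ∧
    Fermat.Agent.A2.Alg.LocUnit (chartAlg A E (M' * q) (xE E M' q)) n
      (G * (cE A E (M' * q) w) ^ a * d ^ m)

/-- `G` is pure with exponent `m` at every closed point of the special fibre of the finite
chart. -/
def ChartPureQ (A : ValuationSubring Kbar) (E : IntermediateField ℚ Kbar) (M' q m : ℕ)
    [NeZero M'] [NeZero q] (w : RE A E) (G : FE E (M' * q)) : Prop :=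
  ∀ n : Ideal (chartAlg A E (M' * q) (xE E M' q)), n.IsMaximal →
    algebraMap (RE A E) (chartAlg A E (M' * q) (xE E M' q)) w ∈ n → PureAtPtQ A E M' q m w G n

/-- The dictionary at ONE datum `(m, q, M', A)`. -/
def DictPureQAt (m q M' : ℕ) [NeZero M'] [NeZero q] [NeZero (q * M')]
    (A : ValuationSubring Kbar) : Prop :=
  ∀ (E : IntermediateField ℚ Kbar) (w : RE A E), Setting A E M' q w →
    Fermat.Agent.A2.GoodField A E →
  ∀ (G : FE E (M' * q)) (G' : FF (q * M')), G ≠ 0 →
    (G' : LaurentSeries Kbar) = coeffMap (algebraMap E Kbar) (G : LaurentSeries E) →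
    ChartPureQ A E M' q m w G → NodeGenQ m q M' A G'

/-- **DICT (pure form, two primes).**  `q` the residue prime, `m > 0` the exponent, `M'` a level
prime to `q` with the auxiliary condition of the models on main (`q = 3 → 2 ∣ M'`,
`q = 2 → 3 ∣ M'`). -/
def DictPureQStatement : Prop :=
  ∀ (m q M' : ℕ) [NeZero M'] [NeZero q] [NeZero (q * M')], 0 < m → q.Prime → ¬ q ∣ M' →
    ((q = 3 → 2 ∣ M') ∧ (q = 2 → 3 ∣ M')) →
    ∀ (A : ValuationSubring Kbar), A.LiesOverPrime q → DictPureQAt m q M' A

end Fermat.Agent.Ribet.H868

end
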