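import Fermat.Agent.Ribet.H868.TameChart
import Fermat.Agent.Ribet.H868.DictQSpec
import Fermat.Agent.S35.G.H862.Model
import Fermat.Agent.S36.H438.Unit
import Fermat.Agent.A2.Mod.H553.Vinf

/-!
# RIBET rows 37/38, TAME package, stage A: purity of the calibrated generator at a level
(helper868)

Level `E` with `R_E = A ∩ E` a DVR with uniformiser `w`, `w = q` in `E` (tame level: `q` is
unramified in `E`), `q ∤ M`, auxiliary condition `HasAux M q`.  The finite chart
`Bf = chartAlg (x)`, `x = j · j_q`, of level `M * q` is semistable (`S35.G.H862.modelNoSep`), and it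
carries the unit pair `D₁ = Δ(t)/Δ(t^q)` (unit of `V∞`), `D₂ = q¹² Δ(t^q)/Δ(t)` (unit of `V₀`),
`D₁ · D₂ = q¹² = w¹²` (`S36.H438`).  For `f ∈ F_E^×` with `m ∣ div f`, `gcd (12, m) = 1`:

  `calibE w v₁ v₂ f = f¹² · D₁^(v₁ - v₂) · w^(-12 v₁)`

is PURE with exponent `m` at every closed point of the special fibre of `Bf`
(`chartPureQ_calibE`, conclusion in the vocabulary `H868.ChartPureQ` of `DictQSpec.lean`).
-/

set_option autoImplicit false
set_option linter.unusedSectionVars false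
set_option linter.style.haveILetI false
set_option synthInstance.maxHeartbeats 400000
set_option maxHeartbeats 1600000

noncomputable section

namespace Fermat.Agent.Ribet.H868

open ModularCurve AlgebraicCurve HahnSeries
open Fermat.Agent.A2.Mod

section Level

variable (A : ValuationSubring (AlgebraicClosure ℚ)) (E : IntermediateField ℚ (AlgebraicClosure ℚ)) (M q : ℕ) [NeZero M] [NeZero q]

/-- The calibrated function at the level `E`:  `f¹² · (Δ(t)/Δ(t^q))^(v₁ - v₂) · w^(-12 v₁)`. -/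
def calibE (w : RE A E) (v₁ v₂ : ℤ) (f : FE E (M * q)) : FE E (M * q) :=
  f ^ 12 * (S36.H438.uE' E (M * q) q (dvd_mul_left q M)) ^ (v₁ - v₂) *
    (cE A E (M * q) w) ^ (-((12 : ℕ) : ℤ) * v₁)

theorem calibE_ne_zero (w : RE A E) (hw : w ≠ 0) (v₁ v₂ : ℤ) {f : FE E (M * q)} (hf : f ≠ 0) :
    calibE A E M q w v₁ v₂ f ≠ 0 := by
  have h1 : S36.H438.uE' E (M * q) q (dvd_mul_left q M) ≠ 0 := by
    rw [S36.H438.uE'_eq_inv]
    exact inv_ne_zero (S36.H438.uE_ne_zero E (M * q) q _)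
  have h2 : cE A E (M * q) w ≠ 0 := by
    unfold cE
    refine (map_ne_zero_iff _ (algebraMap E (FE E (M * q))).injective).mpr ?_
    intro h
    exact hw (Subtype.ext h)
  exact mul_ne_zero (mul_ne_zero (pow_ne_zero _ hf) (zpow_ne_zero _ h1)) (zpow_ne_zero _ h2)

/-- The constant `w` in the chart, as an element of `F_E`. -/
theorem coe_algebraMap_chartAlg868 (N : ℕ) (y : FE E N) (w : RE A E) :
    ((algebraMap ↥(RE A E) ↥(chartAlg A E N y) w : chartAlg A E N y) : FE E N) = cE A E N w :=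
  rfl

/-- `D₁ = Δ(t)/Δ(t^q)` in the finite chart. -/
def chartD₁ (hq : q.Prime) : chartAlg A E (M * q) (xE E M q) :=
  ⟨S36.H438.uE' E (M * q) q (dvd_mul_left q M), S36.H438.uE'_mem_chartAlg A E M q hq⟩

/-- `D₂ = q¹² Δ(t^q)/Δ(t)` in the finite chart. -/
def chartD₂ (hq : q.Prime) : chartAlg A E (M * q) (xE E M q) :=
  ⟨S36.H438.dE E (M * q) q (dvd_mul_left q M), S36.H438.dE_mem_chartAlg A E M q hq⟩

theorem uE'_ne_zero868 : S36.H438.uE' E (M * q) q (dvd_mul_left q M) ≠ 0 := by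
  rw [S36.H438.uE'_eq_inv]
  exact inv_ne_zero (S36.H438.uE_ne_zero E (M * q) q _)

theorem chartD_mul (hq : q.Prime) (w : RE A E) (hwq : (w : E) = (q : E)) :
    chartD₁ A E M q hq * chartD₂ A E M q hq =
      (algebraMap ↥(RE A E) ↥(chartAlg A E (M * q) (xE E M q)) w) ^ 12 := by
  apply Subtype.ext
  rw [Subalgebra.coe_mul, Subalgebra.coe_pow, coe_algebraMap_chartAlg868]
  show S36.H438.uE' E (M * q) q (dvd_mul_left q M) *
      S36.H438.dE E (M * q) q (dvd_mul_left q M) = (cE A E (M * q) w) ^ 12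
  rw [mul_comm (S36.H438.uE' E (M * q) q (dvd_mul_left q M)), S36.H438.dE_mul_uE', cE, hwq,
    map_pow]

theorem false_of_unit_mul_inv868 {F : Type*} [Field F] (V : ValuationSubring F) {u c : F}
    (hu0 : u ≠ 0) (h : u * c⁻¹ ∈ V) (hu : u⁻¹ ∈ V) (hc : c⁻¹ ∉ V) : False := by
  apply hc
  have h3 := V.mul_mem _ _ hu h
  rw [← mul_assoc, inv_mul_cancel₀ hu0, one_mul] at h3
  exact h3

theorem chartD₁_notMem (hq : q.Prime) (w : RE A E)
    (cf : A2.SSChart w (chartAlg A E (M * q) (xE E M q)))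
    (V V₀ : ValuationSubring (FE E (M * q)))
    (hcf : S35.G.CutBy w (chartAlg A E (M * q) (xE E M q)) cf V V₀)
    (hu : (S36.H438.uE' E (M * q) q (dvd_mul_left q M))⁻¹ ∈ V)
    (hwV : (cE A E (M * q) w)⁻¹ ∉ V) : chartD₁ A E M q hq ∉ cf.p₁ := by
  intro hmem
  have h0 := (hcf.cut₁ (chartD₁ A E M q hq)).mp hmem
  exact false_of_unit_mul_inv868 V (uE'_ne_zero868 E M q) h0 hu hwV

theorem chartD₂_notMem (hq : q.Prime) (w : RE A E)
    (cf : A2.SSChart w (chartAlg A E (M * q) (xE E M q)))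
    (V V₀ : ValuationSubring (FE E (M * q)))
    (hcf : S35.G.CutBy w (chartAlg A E (M * q) (xE E M q)) cf V V₀)
    (hd : (S36.H438.dE E (M * q) q (dvd_mul_left q M))⁻¹ ∈ V₀)
    (hwV₀ : (cE A E (M * q) w)⁻¹ ∉ V₀) : chartD₂ A E M q hq ∉ cf.p₂ := by
  intro hmem
  have h0 := (hcf.cut₂ (chartD₂ A E M q hq)).mp hmem
  exact false_of_unit_mul_inv868 V₀ (S36.H438.dE_ne_zero E (M * q) q _) h0 hd hwV₀

/-- The calibrated function of `TameChart.lean` on the finite chart is `calibE`. -/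
theorem calib_eq_calibE (hq : q.Prime) (w : RE A E) (v₁ v₂ : ℤ) (f : FE E (M * q)) :
    calib (algebraMap ↥(RE A E) ↥(chartAlg A E (M * q) (xE E M q)) w) (chartD₁ A E M q hq) 12
      v₁ v₂ f = calibE A E M q w v₁ v₂ f :=
  rfl

/-- **Stage A.**  Purity of the calibrated function at every closed point of the special fibre of
the finite chart, at a level where `q` is a uniformiser. -/
theorem chartPureQ_calibE (m : ℕ) (hm : 0 < m) (hcop : Nat.Coprime 12 m) (w : RE A E)
    (hS : Setting A E M q w) (hE : A2.GoodField A E) (hAux : S35.G.HasAux M q)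
    (hwq : (w : E) = (q : E))
    (f : FE E (M * q)) (hf : f ≠ 0) (hdiv : A2.DivisibleDiv E m f) :
    ∃ v₁ v₂ : ℤ, ChartPureQ A E M q m w (calibE A E M q w v₁ v₂ f) := by
  haveI : IsDiscreteValuationRing ↥(RE A E) := hS.dvr
  have hq : q.Prime := hS.q_prime
  have hN : M * q ≠ 0 := mul_ne_zero hS.M_ne_zero hq.ne_zero
  obtain ⟨V, W, VM, hV, hW, hVM, hg1, hg2, hDeg, cf, ci, hcf, hci⟩ :=
    S35.G.H862.modelNoSep A E M q w hS hE hAux
  obtain ⟨hx, hfr, hconst⟩ := hDeg hq hS.q_not_dvd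
  have hpos : 0 < Module.finrank
      (IntermediateField.adjoin E ({xE E M q} : Set (FE E (M * q))))
      (FE E (M * q)) := by
    rw [hfr]
    have h1 := dedekindPsi_pos_of_ne_zero M (NeZero.ne M)
    positivity
  have hfin : FiniteDimensional
      (IntermediateField.adjoin E ({xE E M q} : Set (FE E (M * q))))
      (FE E (M * q)) := Module.finite_of_finrank_pos hpos
  have hB : A2.Alg.ChartCtx E w (xE E M q) (chartAlg A E (M * q) (xE E M q)) :=
    ⟨hS.unif, hx, hfin, hconst, fun _ => Iff.rfl⟩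
  -- the constant `w` is not invertible in `V∞`, `V₀`
  obtain ⟨hunif, hVE, -⟩ := H553.vinfBasic A E w (M * q) hN hS.dvr hS.unif V hV
  have hwV : (cE A E (M * q) w)⁻¹ ∉ V := hunif.inv_not_mem
  have hwV₀ : (cE A E (M * q) w)⁻¹ ∉ V.comap (W : FE E (M * q) →+* FE E (M * q)) := by
    intro h
    apply hwV
    have h1 : W ((cE A E (M * q) w)⁻¹) ∈ V := h
    have hWc : W (cE A E (M * q) w) = cE A E (M * q) w := W.commutes (w : E)
    rw [map_inv₀, hWc] at h1
    exact h1
  -- the unit pair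
  obtain ⟨-, hu1'⟩ := S36.H438.uE'_unit_vinf A E (M * q) q (dvd_mul_left q M) hV
  obtain ⟨-, hd1'⟩ := S36.H438.dE_unit_vzero A E (M * q) q M (Nat.mul_comm M q)
    (dvd_mul_left q M) W hV hW
  have hDD := chartD_mul A E M q hq w hwq
  have hD₁ := chartD₁_notMem A E M q hq w cf V _ hcf hu1' hwV
  have hD₂ := chartD₂_notMem A E M q hq w cf V _ hcf hd1' hwV₀
  obtain ⟨v₁, v₂, hv₁, hv₂⟩ :=
    exists_valAt_chart (E := E) w (xE E M q) (chartAlg A E (M * q) (xE E M q)) hB cf f hf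
  refine ⟨v₁, v₂, fun n hn hwn => ?_⟩
  obtain ⟨d, hd, hu, -, -⟩ := pureAt_tame (E := E) m 12 hm (by norm_num) hcop w (xE E M q)
    (chartAlg A E (M * q) (xE E M q)) hB cf (chartD₁ A E M q hq) (chartD₂ A E M q hq) hDD hD₁
    hD₂ f hf hdiv v₁ v₂ hv₁ hv₂ n hn.isPrime hwn
  rw [calib_eq_calibE] at hu
  refine ⟨d, 0, hd, ?_⟩
  rw [zpow_zero, mul_one]
  exact hu

end Level

end Fermat.Agent.Ribet.H868

end
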