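import Fermat.Agent.Ribet.H868.TameSetup
import Fermat.Agent.Ribet.H868.TameDescent
import Fermat.Agent.Ribet.H868.TameLevel
import Fermat.Agent.Ribet.H158.WallQGood

/-!
# RIBET rows 37/38, TAME package, stage B: CORE-OUT at the inertia field (helper868)

`A` over the prime `q`, `q ∤ M'`, auxiliary condition `q = 3 → 2 ∣ M'`, `q = 2 → 3 ∣ M'`;
`m > 0` prime to `12`; `x ∈ J₀(q M')[m]` fixed by the inertia group `I` at `A`.

* descent (`exists_fixed_kummerGen`): `x` has a Kummer generator `y ∈ F_E`, `E = ℚ̄^I`;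
* `E` is a good level with uniformiser `q` (`goodField_inertiaField`, `setting_inertiaField`);
* stage A (`chartPureQ_calibE`): `G_E = y¹² · (Δ(t)/Δ(t^q))^(v₁ - v₂) · q^(-12 v₁)` is pure at
  every closed point of the special fibre of the finite chart;
* the dictionary `DictPureQAt m q M' A` turns purity into `H158.WallQ.NodeGenQ`.

Result: **`slopePropQM_of_dict`** : `DictPureQAt m q M' A → SlopePropQM m q M' A x`, for ALL primes
`q` (no `q ≠ p`), and the leaf

  **`coreOutQGood_of_dict : DictPureQStatement → H158.WallQ.CoreOutQGoodStatement`**.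
-/

set_option autoImplicit false
set_option linter.unusedSectionVars false
set_option linter.style.haveILetI false
set_option synthInstance.maxHeartbeats 400000
set_option maxHeartbeats 1600000

noncomputable section

namespace Fermat.Agent.Ribet.H868

open AlgebraicCurve ModularCurve HahnSeries
open Fermat.Agent.S24 Fermat.Agent.Ribet.H884 Fermat.Agent.Ribet.H158.WallQ
open Fermat.Agent.Ribet.Spec
open Fermat.Agent.A2.Mod
open Fermat.Agent.A2.T1.H669 (iota)
open Fermat.Agent.A2.IF.H429 (inertiaField)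

/-! ## Change of the name of the level -/

section Cast

variable (E : IntermediateField ℚ (AlgebraicClosure ℚ))

/-- `F_{N₁,E} = F_{N₂,E}` for `N₁ = N₂`. -/
def castLevelE {N₁ N₂ : ℕ} (h : N₁ = N₂) : FE E N₁ ≃+* FE E N₂ :=
  h ▸ RingEquiv.refl _

theorem coe_castLevelE {N₁ N₂ : ℕ} (h : N₁ = N₂) (y : FE E N₁) :
    ((castLevelE E h y : FE E N₂) : LaurentSeries E) = (y : LaurentSeries E) := by
  subst h
  rfl

theorem divisibleDiv_castLevelE {N₁ N₂ : ℕ} (h : N₁ = N₂) (m : ℕ) (y : FE E N₁)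
    (hy : A2.DivisibleDiv E m y) : A2.DivisibleDiv E m (castLevelE E h y) := by
  subst h
  exact hy

/-- The coefficientwise inclusion `F_{N,E} → F̄_{N'}`, `N = N'`. -/
def toFF {N N' : ℕ} [NeZero N'] (h : N = N') : FE E N →+* FF N' :=
  (iota E (modularFunctionFieldFull N')).comp (castLevelE E h).toRingHom

theorem coe_toFF {N N' : ℕ} [NeZero N'] (h : N = N') (y : FE E N) :
    ((toFF E h y : FF N') : LaurentSeries Kbar) =
      coeffMap (algebraMap E (AlgebraicClosure ℚ)) (y : LaurentSeries E) := by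
  show coeffMap (algebraMap E (AlgebraicClosure ℚ))
    ((castLevelE E h y : FE E N') : LaurentSeries E) = _
  rw [coe_castLevelE]

theorem toFF_castLevelE {N N' : ℕ} [NeZero N'] (h : N = N') (y : FE E N') :
    toFF E h (castLevelE E h.symm y) = iota E (modularFunctionFieldFull N') y := by
  apply Subtype.ext
  rw [coe_toFF, coe_castLevelE, Fermat.Agent.A2.T1.H669.coe_iota]

end Cast

/-! ## The modular unit over `ℚ̄` -/

section Unit

variable (q M' : ℕ) [NeZero M'] [NeZero q] [NeZero (q * M')]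

theorem unitL_bar_mul868 :
    Fermat.Agent.S28.unitL Kbar q *
      coeffMap (Int.castRingHom Kbar) (Fermat.Agent.S28.H589.unitL' q) = 1 := by
  rw [← Fermat.Agent.S28.h88_coeffMap_unitL (Int.castRingHom Kbar) q, ← map_mul,
    Fermat.Agent.S36.H438.unitL_mul_unitL', map_one]

/-- The modular unit `Δ(t^q)/Δ(t)` at level `q M'` over `ℚ̄`. -/
def unitFF : FF (q * M') :=
  ⟨Fermat.Agent.S28.unitL Kbar q,
    Fermat.Agent.S36.H438.laurentBaseChange_mono_h438 Kbar
      (full_degeneracy_le (dvd_mul_right q M')) (Fermat.Agent.S36.H438.unitL_bar_mem q)⟩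

theorem isModUnit_unitFF : IsModUnit q M' (unitFF q M') := rfl

theorem unitFF_ne_zero : unitFF q M' ≠ 0 := by
  intro h
  have h1 : Fermat.Agent.S28.unitL Kbar q = 0 := congrArg Subtype.val h
  have h2 := unitL_bar_mul868 q
  rw [h1, zero_mul] at h2
  exact zero_ne_one h2

variable (A : ValuationSubring (AlgebraicClosure ℚ)) (E : IntermediateField ℚ (AlgebraicClosure ℚ))

theorem toFF_uE' :
    toFF E (Nat.mul_comm M' q) (Fermat.Agent.S36.H438.uE' E (M' * q) q (dvd_mul_left q M')) =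
      (unitFF q M')⁻¹ := by
  apply eq_inv_of_mul_eq_one_right
  apply Subtype.ext
  show Fermat.Agent.S28.unitL Kbar q *
    ((toFF E (Nat.mul_comm M' q)
      (Fermat.Agent.S36.H438.uE' E (M' * q) q (dvd_mul_left q M')) : FF (q * M')) :
        LaurentSeries Kbar) = 1
  rw [coe_toFF, Fermat.Agent.S36.H438.coe_uE', Fermat.Agent.S36.H438.coeffMap_castE]
  exact unitL_bar_mul868 q

theorem toFF_cE (w : RE A E) (hwq : (w : E) = (q : E)) :
    toFF E (Nat.mul_comm M' q) (cE A E (M' * q) w) =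
      algebraMap Kbar (FF (q * M')) (q : Kbar) := by
  apply Subtype.ext
  rw [coe_toFF]
  show coeffMap (algebraMap E (AlgebraicClosure ℚ)) (algebraMap E (LaurentSeries E) (w : E)) =
    algebraMap Kbar (LaurentSeries Kbar) (q : Kbar)
  rw [hwq, Fermat.Agent.S18.H602.coeffMap_algebraMap', map_natCast]

theorem toFF_calibE (w : RE A E) (hwq : (w : E) = (q : E)) (v₁ v₂ : ℤ) (y : FE E (M' * q)) :
    toFF E (Nat.mul_comm M' q) (calibE A E M' q w v₁ v₂ y) =
      (toFF E (Nat.mul_comm M' q) y) ^ 12 * ((unitFF q M')⁻¹) ^ (v₁ - v₂) *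
        (algebraMap Kbar (FF (q * M')) (q : Kbar)) ^ (-((12 : ℕ) : ℤ) * v₁) := by
  unfold calibE
  rw [map_mul, map_mul, map_pow, map_zpow₀, map_zpow₀, toFF_uE', toFF_cE q M' A E w hwq]

end Unit

/-! ## The assembly -/

section Assembly

variable (m q M' : ℕ) [NeZero M'] [NeZero q] [NeZero (q * M')]

/-- The algebra of the slope relation: `G' = f₀¹² D^(v₂ - v₁) q^(-12 v₁)`, `f = q^(-v₁) f₀`. -/
theorem exists_slope_rel868 {K F : Type*} [Field K] [Field F] [Algebra K F] (c₀ : K)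
    (f₀ D G' : F) (hD0 : D ≠ 0) (v₁ v₂ : ℤ)
    (hG' : G' = f₀ ^ 12 * (D⁻¹) ^ (v₁ - v₂) * (algebraMap K F c₀) ^ (-((12 : ℕ) : ℤ) * v₁)) :
    ∃ a b : ℕ, G' * D ^ b = (algebraMap K F (c₀ ^ (-v₁)) * f₀) ^ 12 * D ^ a := by
  have hf12 : (algebraMap K F (c₀ ^ (-v₁)) * f₀) ^ 12 = f₀ ^ 12 *
      (algebraMap K F c₀) ^ (-((12 : ℕ) : ℤ) * v₁) := by
    rw [mul_pow, map_zpow₀, ← zpow_natCast, ← zpow_mul, mul_comm (f₀ ^ 12)]
    congr 2
    ring
  have hG'' : G' = (algebraMap K F (c₀ ^ (-v₁)) * f₀) ^ 12 * D ^ (v₂ - v₁) := by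
    rw [hG', hf12, inv_zpow', neg_sub]
    ring
  rcases le_total v₁ v₂ with hle | hle
  · refine ⟨(v₂ - v₁).toNat, 0, ?_⟩
    rw [pow_zero, mul_one, hG'', ← zpow_natCast D (v₂ - v₁).toNat,
      Int.toNat_of_nonneg (by omega)]
  · refine ⟨0, (v₁ - v₂).toNat, ?_⟩
    rw [pow_zero, mul_one, hG'', ← zpow_natCast D (v₁ - v₂).toNat,
      Int.toNat_of_nonneg (by omega), mul_assoc, ← zpow_add₀ hD0]
    have : v₂ - v₁ + (v₁ - v₂) = 0 := by ring
    rw [this, zpow_zero, mul_one]

/-- **Stage B at a level `E`** where `q` is a uniformiser. -/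
theorem slopePropQM_of_level (hm : 0 < m) (hcop : Nat.Coprime 12 m)
    (hAux : (q = 3 → 2 ∣ M') ∧ (q = 2 → 3 ∣ M'))
    (A : ValuationSubring Kbar) (hDict : DictPureQAt m q M' A)
    (E : IntermediateField ℚ (AlgebraicClosure ℚ)) (w : RE A E) (hS : Setting A E M' q w)
    (hE : A2.GoodField A E) (hwq : (w : E) = (q : E))
    (x : JZero (q * M')) (y : FE E (q * M')) (hy0 : y ≠ 0)
    (hkum : IsKummerGen (q * M') m (iota E (modularFunctionFieldFull (q * M')) y) x)
    (hdiv : A2.DivisibleDiv E m y) : SlopePropQM m q M' A x := by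
  have hq : q.Prime := hS.q_prime
  have hy'0 : castLevelE E (Nat.mul_comm q M') y ≠ 0 :=
    (map_ne_zero_iff _ (castLevelE E (Nat.mul_comm q M')).injective).mpr hy0
  have hdiv' : A2.DivisibleDiv E m (castLevelE E (Nat.mul_comm q M') y) :=
    divisibleDiv_castLevelE E (Nat.mul_comm q M') m y hdiv
  obtain ⟨v₁, v₂, hpure⟩ :=
    chartPureQ_calibE A E M' q m hm hcop w hS hE hAux hwq _ hy'0 hdiv'
  have hG0 : calibE A E M' q w v₁ v₂ (castLevelE E (Nat.mul_comm q M') y) ≠ 0 :=
    calibE_ne_zero A E M' q w hS.unif.ne_zero v₁ v₂ hy'0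
  have hnode : NodeGenQ m q M' A (toFF E (Nat.mul_comm M' q)
      (calibE A E M' q w v₁ v₂ (castLevelE E (Nat.mul_comm q M') y))) :=
    hDict E w hS hE _ _ hG0 (coe_toFF E (Nat.mul_comm M' q) _) hpure
  have hG' := toFF_calibE q M' A E w hwq v₁ v₂ (castLevelE E (Nat.mul_comm q M') y)
  rw [toFF_castLevelE E (Nat.mul_comm M' q) y] at hG'
  have hqK : (q : Kbar) ≠ 0 := Nat.cast_ne_zero.mpr hq.ne_zero
  obtain ⟨a, b, hab⟩ := exists_slope_rel868 (q : Kbar) _ (unitFF q M') _
    (unitFF_ne_zero q M') v₁ v₂ hG'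
  exact ⟨_, unitFF q M', _, 12, a, b,
    IsKummerGen.const_mul868 (q * M') hkum (zpow_ne_zero _ hqK), isModUnit_unitFF q M',
    unitFF_ne_zero q M', by norm_num, hcop, hab, hnode⟩

/-- **Stage B.**  `SlopePropQM` for an inertia-fixed `m`-torsion class, from the dictionary. -/
theorem slopePropQM_of_dict (hm : 0 < m) (hcop : Nat.Coprime 12 m) (hq : q.Prime)
    (hqM : ¬ q ∣ M') (hAux : (q = 3 → 2 ∣ M') ∧ (q = 2 → 3 ∣ M'))
    (A : ValuationSubring Kbar) (hA : A.LiesOverPrime q) (hDict : DictPureQAt m q M' A)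
    (x : JZero (q * M')) (hx : m • x = 0)
    (hfix : ∀ σ ∈ A.inertiaSubgroupIn ℚ, σ • x = x) : SlopePropQM m q M' A x := by
  have hE : A2.GoodField A (inertiaField A) := goodField_inertiaField A q hq hA
  have hS : Setting A (inertiaField A) M' q ((q : ℕ) : RE A (inertiaField A)) :=
    setting_inertiaField A q M' hq hqM (NeZero.ne M') hA
  obtain ⟨y, hy0, hkum, hdiv⟩ := exists_fixed_kummerGen (q * M') m A x hx hfix
  have hwq : ((((q : ℕ) : RE A (inertiaField A)) : inertiaField A)) = (q : inertiaField A) := by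
    simp
  exact slopePropQM_of_level m q M' hm hcop hAux A hDict (inertiaField A) _ hS hE hwq x y hy0
    hkum hdiv

end Assembly

/-! ## The leaf of the wall at `q` -/

/-- `12` is prime to every prime `p ≥ 5`. -/
theorem coprime_twelve868 {p : ℕ} (hp : p.Prime) (hp5 : 5 ≤ p) : Nat.Coprime 12 p := by
  have hp3 : Nat.Coprime 3 p := by
    rw [Nat.coprime_primes Nat.prime_three hp]
    omega
  have hp2 : Nat.Coprime 2 p := by
    rw [Nat.coprime_primes Nat.prime_two hp]
    omega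
  have e : (12 : ℕ) = 2 * 2 * 3 := by norm_num
  rw [e]
  exact Nat.Coprime.mul_left (Nat.Coprime.mul_left hp2 hp2) hp3

/-- **CORE-OUT-q (good levels)** from the two-prime dictionary. -/
theorem coreOutQGood_of_dict (h : DictPureQStatement) : CoreOutQGoodStatement := by
  intro p n q M' _ _ _ hW A hA S a x hnew _ hfix
  have hcop : Nat.Coprime 12 (p ^ n) :=
    Nat.Coprime.pow_right n (coprime_twelve868 hW.p_prime hW.five_le)
  have hAux : (q = 3 → 2 ∣ M') ∧ (q = 2 → 3 ∣ M') := by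
    refine ⟨fun h3 => ?_, fun h2 => absurd h2 hW.q_ne_two⟩
    rcases hW.good with h5 | ⟨-, h2⟩
    · omega
    · exact h2
  have hm : 0 < p ^ n := pow_pos hW.p_prime.pos n
  exact slopePropQM_of_dict (p ^ n) q M' hm hcop hW.q_prime hW.not_dvd hAux A hA
    (h (p ^ n) q M' hm hW.q_prime hW.not_dvd hAux A hA) x hnew.1 hfix

end Fermat.Agent.Ribet.H868

end
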