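import Fermat.Agent.Ribet.H868.CoreOutQ
import Fermat.Agent.Ribet.H472.DictPure

/-!
# RIBET row 37, WALL-q: leaf CORE-OUT-q at good levels, UNCONDITIONAL (helper868)

* `dictPureQ : DictPureQStatement` — the two-prime dictionary (`H472.nodeGenOfPure`);
* `slopePropQM_of_fixed` : `SlopePropQM m q M' A x` for EVERY prime `q` (`q ∤ M'`, auxiliary
  condition `q = 3 → 2 ∣ M'`, `q = 2 → 3 ∣ M'`), every `m > 0` prime to `12`, every `m`-torsion
  class `x` of `J₀(q M')` fixed by the inertia group at `A` (no eigen hypothesis, no `q ≠ p`);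
* **`coreOutQGood : H158.WallQ.CoreOutQGoodStatement`** (VERBATIM).
-/

set_option autoImplicit false
set_option linter.unusedSectionVars false
set_option synthInstance.maxHeartbeats 400000
set_option maxHeartbeats 1600000

noncomputable section

namespace Fermat.Agent.Ribet.H868

open AlgebraicCurve ModularCurve HahnSeries
open Fermat.Agent.S24 Fermat.Agent.Ribet.H884 Fermat.Agent.Ribet.H158.WallQ
open Fermat.Agent.Ribet.Spec

/-- **DICT (pure form, two primes)**, unconditional. -/
theorem dictPureQ : DictPureQStatement :=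
  fun m _ _ _ _ _ _ _ _ _ _ _ _ _ hS hE G G' hG hser hpure =>
    Fermat.Agent.Ribet.H472.nodeGenOfPure hS hE m G G' hG hser hpure

/-- **CORE-OUT, structural core**: every inertia-fixed `m`-torsion class of `J₀(q M')`, `m`
prime to `12`, has slopes proportional to the slopes of the modular unit. -/
theorem slopePropQM_of_fixed (m q M' : ℕ) [NeZero M'] [NeZero q] [NeZero (q * M')]
    (hm : 0 < m) (hcop : Nat.Coprime 12 m) (hq : q.Prime) (hqM : ¬ q ∣ M')
    (hAux : (q = 3 → 2 ∣ M') ∧ (q = 2 → 3 ∣ M'))
    (A : ValuationSubring Kbar) (hA : A.LiesOverPrime q)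
    (x : JZero (q * M')) (hx : m • x = 0)
    (hfix : ∀ σ ∈ A.inertiaSubgroupIn ℚ, σ • x = x) : SlopePropQM m q M' A x :=
  slopePropQM_of_dict m q M' hm hcop hq hqM hAux A hA
    (dictPureQ m q M' hm hq hqM hAux A hA) x hx hfix

/-- **CORE-OUT-q (good levels)**, VERBATIM `H158.WallQ.CoreOutQGoodStatement`, unconditional. -/
theorem coreOutQGood : CoreOutQGoodStatement :=
  coreOutQGood_of_dict dictPureQ

end Fermat.Agent.Ribet.H868

end
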