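import Fermat.Agent.Ribet.H868.NodeSymLen
import Fermat.Agent.Ribet.H403.NodeSlopeFrac

/-!
# RIBET row 38, WALL-p, leaf SYM: the symmetric node relation, fraction form (helper868)

`R` a node ring (`H704.I6.IsNode 𝔭₁ 𝔭₂ π x y`, noetherian local normal domain), `K = Frac R`,
with a unit pair `D · D' = π ^ N`, `N > 0` (NO coprimality hypothesis: the thickness of the node
may be divisible by `m`; this is the situation over a WILD level).

**`nodeSymFrac`**: if `u ∈ Kˣ` is horizontally `m`-divisible, then its slopes `s₁`, `s₂` along the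
two branches at the closed point satisfy `m ∣ s₁ + s₂`.

Math: `s₁(u) + s₂(u)` is the intersection number at the closed point of the horizontal part of
`div u` with the principal special fibre `π = 0`.  Proof: the vertical part of `u ^ N` is removed
with the unit pair (`G = u ^ N / (D' ^ n₁ D ^ n₂) ∈ R ∖ (𝔭₁ ∪ 𝔭₂)` by Hartogs, horizontally
`m N`-divisible), `ℓ(R / (G, π)) = ord₁ G + ord₂ G` and the multiplicity identity give
`m N ∣ N (s₁ + s₂)`.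
-/

set_option autoImplicit false
set_option linter.unusedSectionVars false
set_option linter.style.haveILetI false

namespace Fermat.Agent.Ribet.H868

open IsLocalRing Fermat.Agent.Ribet.H704 Fermat.Agent.A2

/-- **SYM, abstract form** (fraction form; shape of `H704.I6.NodeRelFracStatement`). -/
def NodeSymFracStatement : Prop :=
  ∀ (R K : Type) [CommRing R] [IsDomain R] [IsIntegrallyClosed R] [IsNoetherianRing R]
    [IsLocalRing R] [Field K] [Algebra R K] [IsFractionRing R K]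
    (𝔭₁ 𝔭₂ : Ideal R) (π x y : R), I6.IsNode 𝔭₁ 𝔭₂ π x y →
    ∀ (N : ℕ) (D D' : R), 0 < N → I6.IsUnitPair 𝔭₁ 𝔭₂ π D D' N →
    ∀ (m : ℕ), m ≠ 0 → ∀ (u : K), u ≠ 0 → I6.HorDivFrac K π m u →
    ∀ (s₁ s₂ : ℤ), I6.SlopeAt K 𝔭₁ π x u s₁ → I6.SlopeAt K 𝔭₂ π y u s₂ →
      (m : ℤ) ∣ s₁ + s₂

section Main

variable {R K : Type} [CommRing R] [IsDomain R] [IsIntegrallyClosed R] [IsNoetherianRing R]
  [IsLocalRing R] [Field K] [Algebra R K] [IsFractionRing R K]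

/-- The two orders of a unit pair agree: `ord₁ D = ord₂ D'`. -/
theorem unitPair_ord_eq {𝔭₁ 𝔭₂ : Ideal R} {π x y : R} (hN : I6.IsNode 𝔭₁ 𝔭₂ π x y)
    {N : ℕ} {D D' : R} (hNpos : 0 < N) (hDD : I6.IsUnitPair 𝔭₁ 𝔭₂ π D D' N)
    {k k' : ℕ} (hk : I6.OrdOn 𝔭₁ x D k) (hk' : I6.OrdOn 𝔭₂ y D' k') : k' = k := by
  have hnh : I6.NoHorZero π D' := by
    intro P hP hD'P
    have h1 : π ^ N ∈ P := by
      rw [← hDD.mul_eq]
      exact Ideal.mul_mem_left _ _ hD'P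
    exact hP.mem_of_pow_mem N h1
  have h1ne : (1 : R) ∉ 𝔭₁ := fun h =>
    hN.prime₁.ne_top ((Ideal.eq_top_iff_one _).mpr h)
  have h := H403.nodeRelExact_403 R 𝔭₁ 𝔭₂ π x y hN N D D' hNpos hDD D' 1 D N hDD.hD' h1ne hDD.hD
    (by rw [mul_comm, hDD.mul_eq, mul_one]) hnh k' k hk' hk
  exact Nat.eq_of_mul_eq_mul_left hNpos h

/-- Element form with arbitrary vertical part: for `g ∈ R ∖ {0}` horizontally `m`-divisible the
slopes of `g` along the two branches satisfy `m ∣ σ₁ + σ₂`. -/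
theorem nodeSym_elem {𝔭₁ 𝔭₂ : Ideal R} {π x y : R} (hN : I6.IsNode 𝔭₁ 𝔭₂ π x y)
    {N : ℕ} {D D' : R} (hNpos : 0 < N) (hDD : I6.IsUnitPair 𝔭₁ 𝔭₂ π D D' N)
    {m : ℕ} (hm : m ≠ 0) {g : R} (hg0 : g ≠ 0) (hg : I6.HorDiv π m g)
    {σ₁ σ₂ : ℤ} (hσ₁ : I6.SlopeAt K 𝔭₁ π x (algebraMap R K g) σ₁)
    (hσ₂ : I6.SlopeAt K 𝔭₂ π y (algebraMap R K g) σ₂) : (m : ℤ) ∣ σ₁ + σ₂ := by
  haveI := hN.prime₁
  haveI := hN.prime₂
  have hinj : Function.Injective (algebraMap R K) := IsFractionRing.injective R K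
  have h₁ := H132.branchData_left hN
  have h₂ := H132.branchData_right hN
  have hπ : Ideal.span {π} = 𝔭₁ ⊓ 𝔭₂ := hN.inf_eq.symm
  have hπ' : Ideal.span {π} = 𝔭₂ ⊓ 𝔭₁ := by rw [inf_comm]; exact hπ
  have hπ0 : π ≠ 0 := H132.isNode_pi_ne_zero hN
  have hπmem : π ∈ 𝔭₁ ⊓ 𝔭₂ := hπ ▸ Ideal.mem_span_singleton_self π
  have hπK : algebraMap R K π ≠ 0 := by rwa [Ne, map_eq_zero_iff _ hinj]
  have hD0 : D ≠ 0 := fun h => hDD.hD (h ▸ 𝔭₁.zero_mem)
  have hD'0 : D' ≠ 0 := fun h => hDD.hD' (h ▸ 𝔭₂.zero_mem)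
  have hDK : algebraMap R K D ≠ 0 := by rwa [Ne, map_eq_zero_iff _ hinj]
  have hD'K : algebraMap R K D' ≠ 0 := by rwa [Ne, map_eq_zero_iff _ hinj]
  have hgK : algebraMap R K g ≠ 0 := by rwa [Ne, map_eq_zero_iff _ hinj]
  have hDDK : algebraMap R K D * algebraMap R K D' = algebraMap R K π ^ N := by
    rw [← map_mul, hDD.mul_eq, map_pow]
  -- orders of the unit pair
  obtain ⟨k, hk⟩ := hN.unif₁ D hDD.hD
  obtain ⟨k', hk'⟩ := hN.unif₂ D' hDD.hD'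
  have hkk : k' = k := unitPair_ord_eq hN hNpos hDD hk hk'
  subst hkk
  -- slopes and valuations of `D`, `D'`
  have eD' : algebraMap R K D' = algebraMap R K π ^ N * (algebraMap R K D)⁻¹ := by
    rw [← hDDK]; field_simp
  have eD : algebraMap R K D = algebraMap R K π ^ N * (algebraMap R K D')⁻¹ := by
    rw [← hDDK]; field_simp
  have SD₁ : I6.SlopeAt K 𝔭₁ π x (algebraMap R K D) k' := H132.slopeAt_of_ordOn h₁ hDD.hD hk
  have SD'₂ : I6.SlopeAt K 𝔭₂ π y (algebraMap R K D') k' :=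
    H132.slopeAt_of_ordOn h₂ hDD.hD' hk'
  have SD'₁ : I6.SlopeAt K 𝔭₁ π x (algebraMap R K D') (-(k' : ℤ)) := by
    have := H132.slopeAt_mul h₁ (H132.slopeAt_pow h₁ (H132.slopeAt_pi (K := K) h₁) N)
      (H132.slopeAt_inv h₁ SD₁)
    rw [← eD'] at this
    simpa using this
  have SD₂ : I6.SlopeAt K 𝔭₂ π y (algebraMap R K D) (-(k' : ℤ)) := by
    have := H132.slopeAt_mul h₂ (H132.slopeAt_pow h₂ (H132.slopeAt_pi (K := K) h₂) N)
      (H132.slopeAt_inv h₂ SD'₂)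
    rw [← eD] at this
    simpa using this
  have VD₁ : I6.ValAt K 𝔭₁ π (algebraMap R K D) 0 := H132.valAt_of_notMem h₁.vert hDD.hD
  have VD'₂ : I6.ValAt K 𝔭₂ π (algebraMap R K D') 0 := H132.valAt_of_notMem h₂.vert hDD.hD'
  have VD'₁ : I6.ValAt K 𝔭₁ π (algebraMap R K D') N := by
    have := H132.valAt_mul h₁.vert (H132.valAt_pow h₁.vert (H132.valAt_pi (K := K) h₁.vert) N)
      (H132.valAt_inv h₁.vert VD₁)
    rw [← eD'] at this
    simpa using this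
  have VD₂ : I6.ValAt K 𝔭₂ π (algebraMap R K D) N := by
    have := H132.valAt_mul h₂.vert (H132.valAt_pow h₂.vert (H132.valAt_pi (K := K) h₂.vert) N)
      (H132.valAt_inv h₂.vert VD'₂)
    rw [← eD] at this
    simpa using this
  -- vertical valuations of `g`
  obtain ⟨n₁, a₁, b₁, ha₁, hb₁, hab₁⟩ := H403.exists_val_403 𝔭₁ 𝔭₂ hπ hN.hx hN.hx₁ hg0
  obtain ⟨n₂, a₂, b₂, ha₂, hb₂, hab₂⟩ := H403.exists_val_403 𝔭₂ 𝔭₁ hπ' hN.hy hN.hy₂ hg0
  have Vg₁ : I6.ValAt K 𝔭₁ π (algebraMap R K g) n₁ := by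
    refine ⟨b₁, a₁, hb₁, ha₁, ?_⟩
    rw [zpow_natCast, ← map_pow, ← map_mul, ← map_mul]
    congr 1
    linear_combination hab₁
  have Vg₂ : I6.ValAt K 𝔭₂ π (algebraMap R K g) n₂ := by
    refine ⟨b₂, a₂, hb₂, ha₂, ?_⟩
    rw [zpow_natCast, ← map_pow, ← map_mul, ← map_mul]
    congr 1
    linear_combination hab₂
  -- the element `W = g ^ N / (D' ^ n₁ D ^ n₂)`
  set W : K := algebraMap R K g ^ N * ((algebraMap R K D') ^ n₁)⁻¹ * ((algebraMap R K D) ^ n₂)⁻¹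
    with hW
  have VW₁ : I6.ValAt K 𝔭₁ π W 0 := by
    have := H132.valAt_mul h₁.vert (H132.valAt_mul h₁.vert (H132.valAt_pow h₁.vert Vg₁ N)
      (H132.valAt_inv h₁.vert (H132.valAt_pow h₁.vert VD'₁ n₁)))
      (H132.valAt_inv h₁.vert (H132.valAt_pow h₁.vert VD₁ n₂))
    have e : (N : ℤ) * n₁ + -((n₁ : ℤ) * N) + -((n₂ : ℤ) * 0) = 0 := by ring
    rwa [e] at this
  have VW₂ : I6.ValAt K 𝔭₂ π W 0 := by
    have := H132.valAt_mul h₂.vert (H132.valAt_mul h₂.vert (H132.valAt_pow h₂.vert Vg₂ N)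
      (H132.valAt_inv h₂.vert (H132.valAt_pow h₂.vert VD'₂ n₁)))
      (H132.valAt_inv h₂.vert (H132.valAt_pow h₂.vert VD₂ n₂))
    have e : (N : ℤ) * n₂ + -((n₁ : ℤ) * 0) + -((n₂ : ℤ) * N) = 0 := by ring
    rwa [e] at this
  -- Hartogs: `W ∈ R`
  have hWR : W ∈ (algebraMap R K).range := by
    refine H849.mem_range_of_forall_isLocDVR W (fun O P hOP => ?_)
    have hPp := hOP.prime
    have key : ∀ (𝔭 : Ideal R), 𝔭.IsPrime → π ∈ 𝔭 → 𝔭 ≤ P → I6.ValAt K 𝔭 π W 0 → W ∈ O := by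
      intro 𝔭 h𝔭 hπ𝔭 hle hV
      have h𝔭0 : 𝔭 ≠ ⊥ := fun h => hπ0 (by simpa [h] using hπ𝔭)
      have hEq : 𝔭 = P := hOP.height_one 𝔭 h𝔭 h𝔭0 hle
      obtain ⟨a, b, -, hb, hab⟩ := hV
      have hbK : algebraMap R K b ≠ 0 := by
        rw [Ne, map_eq_zero_iff _ hinj]
        rintro rfl
        exact hb 𝔭.zero_mem
      have hWab : W = algebraMap R K a * (algebraMap R K b)⁻¹ := by
        rw [zpow_zero, one_mul] at hab
        rw [← hab]; field_simp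
      rw [hWab]
      exact O.mul_mem _ _ (hOP.le a) (hOP.inv_mem b (hEq ▸ hb))
    by_cases hπP : π ∈ P
    · have hle : 𝔭₁ ⊓ 𝔭₂ ≤ P := by
        rw [← hπ, Ideal.span_singleton_le_iff_mem]
        exact hπP
      rcases (Ideal.IsPrime.inf_le hPp).mp hle with h | h
      · exact key 𝔭₁ inferInstance hπmem.1 h VW₁
      · exact key 𝔭₂ inferInstance hπmem.2 h VW₂
    · have hDP : D ∉ P := fun h => hπP (hPp.mem_of_pow_mem N (by
        rw [← hDD.mul_eq]; exact Ideal.mul_mem_right _ _ h))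
      have hD'P : D' ∉ P := fun h => hπP (hPp.mem_of_pow_mem N (by
        rw [← hDD.mul_eq]; exact Ideal.mul_mem_left _ _ h))
      rw [hW, ← inv_pow, ← inv_pow]
      exact O.mul_mem _ _ (O.mul_mem _ _ (pow_mem (hOP.le g) N)
        (pow_mem (hOP.inv_mem D' hD'P) n₁)) (pow_mem (hOP.inv_mem D hDP) n₂)
  obtain ⟨G, hGW⟩ := hWR
  have hG_not : ∀ (𝔭 : Ideal R), 𝔭.IsPrime → I6.ValAt K 𝔭 π W 0 → G ∉ 𝔭 := by
    intro 𝔭 h𝔭 hV hG
    obtain ⟨a, b, ha, -, hab⟩ := hV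
    rw [zpow_zero, one_mul, ← hGW, ← map_mul] at hab
    have := hinj hab
    exact ha (this ▸ 𝔭.mul_mem_right _ hG)
  have hG₁ : G ∉ 𝔭₁ := hG_not 𝔭₁ inferInstance VW₁
  have hG₂ : G ∉ 𝔭₂ := hG_not 𝔭₂ inferInstance VW₂
  have hrel : G * D' ^ n₁ * D ^ n₂ = g ^ N := by
    apply hinj
    rw [map_mul, map_mul, map_pow, map_pow, map_pow, hGW, hW]
    field_simp
  -- `G` is horizontally `m N`-divisible
  have hMpos : 0 < m * N := Nat.mul_pos (Nat.pos_of_ne_zero hm) hNpos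
  have hhor : I6.HorDiv π (m * N) G := by
    intro P hP hGP hπP
    have hgP : g ∈ P := by
      have : g ^ N ∈ P := by
        rw [← hrel]
        exact Ideal.mul_mem_right _ _ (Ideal.mul_mem_right _ _ hGP)
      exact hP.mem_of_pow_mem N this
    have hDP : D ∉ P := fun h => hπP (hP.mem_of_pow_mem N (by
      rw [← hDD.mul_eq]; exact Ideal.mul_mem_right _ _ h))
    have hD'P : D' ∉ P := fun h => hπP (hP.mem_of_pow_mem N (by
      rw [← hDD.mul_eq]; exact Ideal.mul_mem_left _ _ h))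
    obtain ⟨f, r, hr, hf⟩ := hg P hP hgP hπP
    refine ⟨f, D' ^ n₁ * D ^ n₂ * r ^ N, ?_, ?_⟩
    · intro h
      rcases hP.mem_or_mem h with h1 | h1
      · rcases hP.mem_or_mem h1 with h2 | h2
        · exact hD'P (hP.mem_of_pow_mem _ h2)
        · exact hDP (hP.mem_of_pow_mem _ h2)
      · exact hr (hP.mem_of_pow_mem _ h1)
    · rw [pow_mul, hf, mul_pow, ← hrel]
      ring
  obtain ⟨i, hi⟩ := hN.unif₁ G hG₁
  obtain ⟨j, hj⟩ := hN.unif₂ G hG₂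
  have hdvd : m * N ∣ i + j := dvd_ord_add_ord hN hMpos hG₁ hG₂ hhor hi hj
  -- slopes of `W = G`
  have SG₁ : I6.SlopeAt K 𝔭₁ π x W i := hGW ▸ H132.slopeAt_of_ordOn h₁ hG₁ hi
  have SG₂ : I6.SlopeAt K 𝔭₂ π y W j := hGW ▸ H132.slopeAt_of_ordOn h₂ hG₂ hj
  have SW₁ := H132.slopeAt_mul h₁ (H132.slopeAt_mul h₁ (H132.slopeAt_pow h₁ hσ₁ N)
      (H132.slopeAt_inv h₁ (H132.slopeAt_pow h₁ SD'₁ n₁)))
      (H132.slopeAt_inv h₁ (H132.slopeAt_pow h₁ SD₁ n₂))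
  have SW₂ := H132.slopeAt_mul h₂ (H132.slopeAt_mul h₂ (H132.slopeAt_pow h₂ hσ₂ N)
      (H132.slopeAt_inv h₂ (H132.slopeAt_pow h₂ SD'₂ n₁)))
      (H132.slopeAt_inv h₂ (H132.slopeAt_pow h₂ SD₂ n₂))
  have e₁ := H132.slopeAt_unique h₁ SG₁ SW₁
  have e₂ := H132.slopeAt_unique h₂ SG₂ SW₂
  have hsum : ((i + j : ℕ) : ℤ) = (σ₁ + σ₂) * N := by
    push_cast
    rw [e₁, e₂]
    ring
  have h3 : ((m * N : ℕ) : ℤ) ∣ (σ₁ + σ₂) * N := by
    rw [← hsum]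
    exact Int.natCast_dvd_natCast.mpr hdvd
  rw [Nat.cast_mul] at h3
  exact (mul_dvd_mul_iff_right (by exact_mod_cast hNpos.ne' : (N : ℤ) ≠ 0)).mp h3

/-- **SYM, abstract form (fraction form).** -/
theorem nodeSymFrac : NodeSymFracStatement := by
  intro R K _ _ _ _ _ _ _ _ 𝔭₁ 𝔭₂ π x y hN N D D' hNpos hDD m hm u hu hdiv s₁ s₂ hs₁ hs₂
  have hinj : Function.Injective (algebraMap R K) := IsFractionRing.injective R K
  have h₁ := H132.branchData_left hN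
  have h₂ := H132.branchData_right hN
  obtain ⟨a, b, hb0, hab, hhor⟩ := hdiv
  have hbK : algebraMap R K b ≠ 0 := by rwa [Ne, map_eq_zero_iff _ hinj]
  have ha0 : a ≠ 0 := by
    rintro rfl
    rw [map_zero] at hab
    exact (mul_ne_zero hu hbK) hab
  have hg0 : a * b ^ (m - 1) ≠ 0 := mul_ne_zero ha0 (pow_ne_zero _ hb0)
  have hgu : algebraMap R K (a * b ^ (m - 1)) = u * algebraMap R K b ^ m := by
    rw [map_mul, map_pow, ← hab, mul_assoc, mul_pow_sub_one hm]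
  obtain ⟨t₁, ht₁⟩ := H132.exists_slopeAt (K := K) h₁ hbK
  obtain ⟨t₂, ht₂⟩ := H132.exists_slopeAt (K := K) h₂ hbK
  have S₁ := H132.slopeAt_mul h₁ hs₁ (H132.slopeAt_pow h₁ ht₁ m)
  have S₂ := H132.slopeAt_mul h₂ hs₂ (H132.slopeAt_pow h₂ ht₂ m)
  rw [← hgu] at S₁ S₂
  have h := nodeSym_elem hN hNpos hDD hm hg0 hhor S₁ S₂
  have e : s₁ + (m : ℤ) * t₁ + (s₂ + (m : ℤ) * t₂) = (s₁ + s₂) + (m : ℤ) * (t₁ + t₂) := by ring
  rw [e] at h
  exact (Int.dvd_add_left (Dvd.intro _ rfl)).mp h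

end Main

end Fermat.Agent.Ribet.H868
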