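import Fermat.Agent.Ribet.H132.NodeVal
import Fermat.Agent.Ribet.H403.NodeRel

/-!
# RIBET row 38, WALL-p, leaf SYM: the symmetric node relation, element form (helper868)

`R` a noetherian local integrally closed domain, `(𝔭₁, 𝔭₂, π, x, y)` a node
(`H704.I6.IsNode`).  For `G ∈ R ∖ (𝔭₁ ∪ 𝔭₂)`:

* `length_span_pair_node` : `ℓ(R / (G, π)) = ord₁ G + ord₂ G` (intersection number of `div G`
  with the principal special fibre `π = 0`; NO thickness, NO unit pair);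
* `dvd_ord_add_ord` : if `G` is horizontally `M`-divisible then `M ∣ ord₁ G + ord₂ G`
  (multiplicity identity `A2.H672.length_eq_mul_length` with `Y := π`).
-/

set_option autoImplicit false
set_option linter.unusedSectionVars false
set_option linter.style.haveILetI false

namespace Fermat.Agent.Ribet.H868

open IsLocalRing Fermat.Agent.Ribet.H704 Fermat.Agent.A2

section Length

variable {R : Type*} [CommRing R] [IsLocalRing R]
variable (𝔭₁ 𝔭₂ : Ideal R) [𝔭₁.IsPrime] [𝔭₂.IsPrime]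

/-- Multiplication by the uniformiser `y` of the second branch identifies `R / ((u) + 𝔭₂)` with
`((u) + 𝔭₁) / (u, π)`. -/
theorem relLen_pair_branch {π y u : R} (hπ : Ideal.span {π} = 𝔭₁ ⊓ 𝔭₂)
    (hy₁ : y ∈ 𝔭₁) (hy₂ : y ∉ 𝔭₂) (h𝔭₁ : 𝔭₁ ≤ Ideal.span {y} ⊔ Ideal.span {π})
    (hu₁ : u ∉ 𝔭₁) :
    H672.relLen (Ideal.span {u, π}) (Ideal.span {u} ⊔ 𝔭₁) =
      H672.relLen (Ideal.span {u} ⊔ 𝔭₂) (⊤ : Ideal R) := by
  have hπ₁ : π ∈ 𝔭₁ := by
    have : π ∈ 𝔭₁ ⊓ 𝔭₂ := hπ ▸ Ideal.mem_span_singleton_self π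
    exact this.1
  have hπ₂ : π ∈ 𝔭₂ := by
    have : π ∈ 𝔭₁ ⊓ 𝔭₂ := hπ ▸ Ideal.mem_span_singleton_self π
    exact this.2
  have hu_mem : u ∈ Ideal.span ({u, π} : Set R) := Ideal.subset_span (by simp)
  have hπ_mem : π ∈ Ideal.span ({u, π} : Set R) := Ideal.subset_span (by simp)
  symm
  refine H672.relLen_eq_of_map (LinearMap.mulLeft R y) ?_ ?_ ?_
  · intro b _
    rw [LinearMap.mulLeft_apply]
    exact Ideal.mem_sup_right (𝔭₁.mul_mem_right _ hy₁)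
  · intro b _
    rw [LinearMap.mulLeft_apply]
    constructor
    · intro h
      obtain ⟨a, c, hac⟩ := Ideal.mem_span_pair.mp h
      -- `a u + c π = y b`
      have ha : a ∈ 𝔭₁ := by
        have h1 : a * u ∈ 𝔭₁ := by
          have : a * u = y * b - c * π := by rw [← hac]; ring
          rw [this]
          exact 𝔭₁.sub_mem (𝔭₁.mul_mem_right _ hy₁) (𝔭₁.mul_mem_left _ hπ₁)
        exact (Ideal.IsPrime.mem_or_mem inferInstance h1).resolve_right hu₁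
      obtain ⟨p, hp, q, hq, hpq⟩ := Submodule.mem_sup.mp (h𝔭₁ ha)
      obtain ⟨a', rfl⟩ := Ideal.mem_span_singleton'.mp hp
      obtain ⟨a'', rfl⟩ := Ideal.mem_span_singleton'.mp hq
      have h2 : y * (b - a' * u) ∈ 𝔭₂ := by
        have : y * (b - a' * u) = (a'' * u + c) * π := by
          have e : y * b = (a' * y + a'' * π) * u + c * π := by rw [hpq, hac]
          linear_combination e
        rw [this]
        exact 𝔭₂.mul_mem_left _ hπ₂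
      have h3 : b - a' * u ∈ 𝔭₂ :=
        (Ideal.IsPrime.mem_or_mem inferInstance h2).resolve_left hy₂
      have : b = a' * u + (b - a' * u) := by ring
      rw [this]
      exact Ideal.add_mem _
        (Ideal.mem_sup_left (Ideal.mul_mem_left _ _ (Ideal.mem_span_singleton_self u)))
        (Ideal.mem_sup_right h3)
    · intro h
      obtain ⟨p, hp, q, hq, rfl⟩ := Submodule.mem_sup.mp h
      obtain ⟨a, rfl⟩ := Ideal.mem_span_singleton'.mp hp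
      have h1 : y * q ∈ Ideal.span ({u, π} : Set R) := by
        have h2 : y * q ∈ 𝔭₁ ⊓ 𝔭₂ := ⟨𝔭₁.mul_mem_right _ hy₁, 𝔭₂.mul_mem_left _ hq⟩
        rw [← hπ] at h2
        obtain ⟨c, hc⟩ := Ideal.mem_span_singleton'.mp h2
        rw [← hc]
        exact Ideal.mul_mem_left _ _ hπ_mem
      have : y * (a * u + q) = (y * a) * u + y * q := by ring
      rw [this]
      exact Ideal.add_mem _ (Ideal.mul_mem_left _ _ hu_mem) h1
  · intro b' hb'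
    obtain ⟨p, hp, q, hq, rfl⟩ := Submodule.mem_sup.mp hb'
    obtain ⟨a, rfl⟩ := Ideal.mem_span_singleton'.mp hp
    obtain ⟨p', hp', q', hq', rfl⟩ := Submodule.mem_sup.mp (h𝔭₁ hq)
    obtain ⟨r, rfl⟩ := Ideal.mem_span_singleton'.mp hp'
    obtain ⟨c, rfl⟩ := Ideal.mem_span_singleton'.mp hq'
    refine ⟨r, Submodule.mem_top, ?_⟩
    rw [LinearMap.mulLeft_apply]
    have : a * u + (r * y + c * π) - y * r = a * u + c * π := by ring
    rw [this]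
    exact Ideal.add_mem _ (Ideal.mul_mem_left _ _ hu_mem) (Ideal.mul_mem_left _ _ hπ_mem)

variable [IsDiscreteValuationRing (R ⧸ 𝔭₁)] [IsDiscreteValuationRing (R ⧸ 𝔭₂)]

/-- **Intersection number with the special fibre at a node**:
`ℓ(R / (u, π)) = ord₁ u + ord₂ u`. -/
theorem length_span_pair_node {π x y u : R} (hπ : Ideal.span {π} = 𝔭₁ ⊓ 𝔭₂)
    (hx : Irreducible (Ideal.Quotient.mk 𝔭₁ x)) (hy : Irreducible (Ideal.Quotient.mk 𝔭₂ y))
    (hy₁ : y ∈ 𝔭₁) (h𝔭₁ : 𝔭₁ ≤ Ideal.span {y} ⊔ Ideal.span {π})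
    {i j : ℕ} {ε₁ : (R ⧸ 𝔭₁)ˣ} {ε₂ : (R ⧸ 𝔭₂)ˣ}
    (h₁ : Ideal.Quotient.mk 𝔭₁ u = ε₁ * (Ideal.Quotient.mk 𝔭₁ x) ^ i)
    (h₂ : Ideal.Quotient.mk 𝔭₂ u = ε₂ * (Ideal.Quotient.mk 𝔭₂ y) ^ j) :
    Module.length R (R ⧸ Ideal.span {u, π}) = ((i + j : ℕ) : ℕ∞) := by
  have hπ₁ : π ∈ 𝔭₁ := by
    have : π ∈ 𝔭₁ ⊓ 𝔭₂ := hπ ▸ Ideal.mem_span_singleton_self π
    exact this.1
  have hy₂ : y ∉ 𝔭₂ := fun h => hy.ne_zero (Ideal.Quotient.eq_zero_iff_mem.mpr h)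
  have hu₁ : u ∉ 𝔭₁ := by
    intro h
    have h0 : Ideal.Quotient.mk 𝔭₁ u = 0 := Ideal.Quotient.eq_zero_iff_mem.mpr h
    rw [h₁] at h0
    rcases mul_eq_zero.mp h0 with h1 | h1
    · exact ε₁.ne_zero h1
    · exact hx.ne_zero (H403.eq_zero_of_pow_eq_zero_403 h1)
  have hle : Ideal.span ({u, π} : Set R) ≤ Ideal.span {u} ⊔ 𝔭₁ := by
    rw [Ideal.span_le]
    intro z hz
    simp only [Set.mem_insert_iff, Set.mem_singleton_iff] at hz
    rcases hz with rfl | rfl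
    · exact Ideal.mem_sup_left (Ideal.mem_span_singleton_self _)
    · exact Ideal.mem_sup_right hπ₁
  rw [← H672.relLen_top, H672.relLen_add hle le_top,
    relLen_pair_branch 𝔭₁ 𝔭₂ hπ hy₁ hy₂ h𝔭₁ hu₁,
    H403.relLen_span_sup_branch_403 𝔭₂ hy h₂, H403.relLen_span_sup_branch_403 𝔭₁ hx h₁]
  push_cast
  ring

end Length

section Main

variable {R : Type*} [CommRing R] [IsDomain R] [IsIntegrallyClosed R] [IsNoetherianRing R]
  [IsLocalRing R]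

/-- **Symmetric node relation, element form.**  In a node ring, an element `G` outside both
branches which is horizontally `M`-divisible satisfies `M ∣ ord₁ G + ord₂ G`. -/
theorem dvd_ord_add_ord {𝔭₁ 𝔭₂ : Ideal R} {π x y : R} (hN : I6.IsNode 𝔭₁ 𝔭₂ π x y)
    {M : ℕ} (hM : 0 < M) {G : R} (hG₁ : G ∉ 𝔭₁) (hG₂ : G ∉ 𝔭₂) (hhor : I6.HorDiv π M G)
    {i j : ℕ} (hi : I6.OrdOn 𝔭₁ x G i) (hj : I6.OrdOn 𝔭₂ y G j) : M ∣ i + j := by
  haveI := hN.prime₁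
  haveI := hN.prime₂
  haveI : IsDiscreteValuationRing (R ⧸ 𝔭₁) :=
    H403.isDVR_of_unif_403 𝔭₁ hN.hx₁ hN.nonunit₁ hN.unif₁
  haveI : IsDiscreteValuationRing (R ⧸ 𝔭₂) :=
    H403.isDVR_of_unif_403 𝔭₂ hN.hy₂ hN.nonunit₂ hN.unif₂
  have hirr₁ := H403.irreducible_mk_of_unif_403 𝔭₁ hN.hx₁ hN.nonunit₁ hN.unif₁
  have hirr₂ := H403.irreducible_mk_of_unif_403 𝔭₂ hN.hy₂ hN.nonunit₂ hN.unif₂
  have hπ : Ideal.span {π} = 𝔭₁ ⊓ 𝔭₂ := hN.inf_eq.symm
  have hπ0 : π ≠ 0 := H132.isNode_pi_ne_zero hN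
  have hπmem : π ∈ 𝔭₁ ⊓ 𝔭₂ := hπ ▸ Ideal.mem_span_singleton_self π
  have h𝔭₁m : 𝔭₁ ≤ maximalIdeal R :=
    IsLocalRing.le_maximalIdeal (Ideal.IsPrime.ne_top inferInstance)
  have hπm : π ∈ maximalIdeal R := h𝔭₁m hπmem.1
  have hG0 : G ≠ 0 := by
    rintro rfl
    exact hG₁ 𝔭₁.zero_mem
  have h𝔭₁ : 𝔭₁ ≤ Ideal.span {y} ⊔ Ideal.span {π} := by
    intro b hb
    have h1 := H403.mem_span_pair_of_unif_403 𝔭₂ 𝔭₁ (π := π) (x := y)
      (by rw [inf_comm]; exact hN.inf_eq) hN.hy hN.unif₂ hb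
    rw [Ideal.span_insert] at h1
    exact h1
  obtain ⟨ε₁, hε₁⟩ := H403.ordOn_unit_form_403 𝔭₁ hi rfl
  obtain ⟨ε₂, hε₂⟩ := H403.ordOn_unit_form_403 𝔭₂ hj rfl
  have hlen := length_span_pair_node 𝔭₁ 𝔭₂ hπ hirr₁ hirr₂ hN.hy h𝔭₁ hε₁ hε₂
  have hreg : ∀ z : R, π ∣ G * z → π ∣ z := by
    intro z hz
    rw [← Ideal.mem_span_singleton, hπ] at hz ⊢
    exact ⟨(Ideal.IsPrime.mem_or_mem inferInstance hz.1).resolve_left hG₁,
      (Ideal.IsPrime.mem_or_mem inferInstance hz.2).resolve_left hG₂⟩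
  obtain ⟨k, hk⟩ := H672.exists_pow_le_span_pair 𝔭₁ 𝔭₂ hπ hG₁ hG₂
  have hloc : ∀ P : Ideal R, P.IsPrime → G ∈ P → π ∉ P → ∃ z σ : R, σ ∉ P ∧ z ^ M = σ * G := by
    intro P hP hGP hπP
    obtain ⟨f, r, hr, hf⟩ := hhor P hP hGP hπP
    exact ⟨f, r, hr, by rw [hf, mul_comm]⟩
  have hmul := H672.length_eq_mul_length G hG0 M hM π hπ0 hπm hreg k hk hloc
  rw [hlen] at hmul
  generalize Module.length R (R ⧸ (H969.powRootIdeal G hG0 M hM 1 ⊔ Ideal.span {π})) = L at hmul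
  cases L with
  | top =>
    exfalso
    rw [ENat.mul_top (by exact_mod_cast hM.ne')] at hmul
    exact ENat.natCast_ne_top (i + j) (by exact_mod_cast hmul)
  | coe l =>
    refine ⟨l, ?_⟩
    exact_mod_cast hmul

end Main

end Fermat.Agent.Ribet.H868
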