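import Fermat.Agent.Ribet.H868.TameNode
import Fermat.Agent.Ribet.H132.InstA
import Fermat.Agent.Ribet.H644.SmoothDiv
import Fermat.Agent.A2.Alg.H609.PurityNode

/-!
# RIBET rows 37/38, TAME package: purity of the calibrated Kummer generator on a chart (helper868)

`B` a semistable chart (`A2.SSChart`, components `p₁`, `p₂`) with a unit pair `D₁ · D₂ = w ^ N`,
`D₁ ∉ p₁`, `D₂ ∉ p₂`, `N > 0` prime to `m`; `f ∈ Fˣ` with `m ∣ div f` on the generic fibre of the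
chart, `v₁`, `v₂` its valuations along the two components.  Then the calibrated function

  `G = f ^ N · D₁ ^ (v₁ - v₂) · w ^ (- N v₁)`

is a unit on both components and PURE (`A2.Alg.PureAt`) at EVERY point of the special fibre of the
chart:

* at a crossing point: `tame_node` (tame node relation + node purity) in the node ring `B_n`
  (`H132.exists_isNode_locAt`);
* at a smooth point: `H644.exists_pureAt_smooth_of_unitAt` (purity from (H1) alone).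

`exists_pureAt_tame_core` : core form (any noetherian normal domain `B`);
`pureAt_tame`             : `A2.Alg` vocabulary (`ChartCtx`, `SSChart`, `PureAt`).
-/

set_option autoImplicit false
set_option linter.unusedSectionVars false
set_option linter.style.haveILetI false
set_option maxHeartbeats 1000000

namespace Fermat.Agent.Ribet.H868

open IsLocalRing Fermat.Agent.Ribet.H704 Fermat.Agent.A2 Fermat.Agent.A2.Alg.H132
open Fermat.Agent.A2.H849 Fermat.Agent.A2.H609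

section Calib

variable {B : Type*} [CommRing B] {F : Type*} [Field F] [Algebra B F]

/-- The calibrated function. -/
noncomputable def calib (w D₁ : B) (N : ℕ) (v₁ v₂ : ℤ) (f : F) : F :=
  f ^ N * (algebraMap B F D₁) ^ (v₁ - v₂) * (algebraMap B F w) ^ (-(N : ℤ) * v₁)

end Calib

section Core

variable {B : Type} [CommRing B] [IsDomain B] [IsNoetherianRing B] [IsIntegrallyClosed B]
variable {F : Type} [Field F] [Algebra B F] [IsFractionRing B F]

theorem calib_ne_zero {w D₁ : B} (hw : w ≠ 0) (hD₁ : D₁ ≠ 0) (N : ℕ) (v₁ v₂ : ℤ) {f : F}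
    (hf : f ≠ 0) : calib w D₁ N v₁ v₂ f ≠ 0 := by
  have hinj : Function.Injective (algebraMap B F) := IsFractionRing.injective B F
  have h1 : algebraMap B F D₁ ≠ 0 := fun h => hD₁ (hinj (by rw [h, map_zero]))
  have h2 : algebraMap B F w ≠ 0 := fun h => hw (hinj (by rw [h, map_zero]))
  exact mul_ne_zero (mul_ne_zero (pow_ne_zero _ hf) (zpow_ne_zero _ h1)) (zpow_ne_zero _ h2)

/-- The calibrated function is a unit on the first component. -/
theorem valAt_calib₁ {w : B} {p₁ p₂ : Ideal B} (h : VertData w p₁ p₂) {N : ℕ} {D₁ : B}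
    (hD₁ : D₁ ∉ p₁) {f : F} {v₁ : ℤ} (hv₁ : I6.ValAt F p₁ w f v₁) (v₂ : ℤ) :
    I6.ValAt F p₁ w (calib w D₁ N v₁ v₂ f) 0 := by
  have := H132.valAt_mul h (H132.valAt_mul h (H132.valAt_pow h hv₁ N)
    (valAt_zpow868 h (H132.valAt_of_notMem (K := F) h hD₁) (v₁ - v₂)))
    (valAt_zpow868 h (H132.valAt_pi (K := F) h) (-(N : ℤ) * v₁))
  have e : (N : ℤ) * v₁ + (v₁ - v₂) * 0 + -(N : ℤ) * v₁ * 1 = 0 := by ring
  rwa [e] at this

/-- The calibrated function is a unit on the second component. -/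
theorem valAt_calib₂ {w : B} {p₁ p₂ : Ideal B} (h : VertData w p₂ p₁) {N : ℕ} {D₁ D₂ : B}
    (hDD : D₁ * D₂ = w ^ N) (hD₂ : D₂ ∉ p₂) {f : F} (v₁ : ℤ) {v₂ : ℤ}
    (hv₂ : I6.ValAt F p₂ w f v₂) :
    I6.ValAt F p₂ w (calib w D₁ N v₁ v₂ f) 0 := by
  have h1 : (1 : B) ∉ p₂ := fun h1 => h.prime.ne_top ((Ideal.eq_top_iff_one _).2 h1)
  have hDDK : algebraMap B F D₁ * algebraMap B F D₂ = (algebraMap B F w) ^ (N : ℤ) *
      algebraMap B F 1 := by
    rw [← map_mul, hDD, map_pow, map_one, mul_one, zpow_natCast]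
  have hD₁v₂ : I6.ValAt F p₂ w (algebraMap B F D₁) N := ⟨1, D₂, h1, hD₂, hDDK⟩
  have := H132.valAt_mul h (H132.valAt_mul h (H132.valAt_pow h hv₂ N)
    (valAt_zpow868 h hD₁v₂ (v₁ - v₂)))
    (valAt_zpow868 h (H132.valAt_pi (K := F) h) (-(N : ℤ) * v₁))
  have e : (N : ℤ) * v₂ + (v₁ - v₂) * N + -(N : ℤ) * v₁ * 1 = 0 := by ring
  rwa [e] at this

/-- Horizontal divisibility of the calibrated function. -/
theorem hdiv_calib {w : B} (hw : w ≠ 0) {m N : ℕ} (_hN : 0 < N) {D₁ D₂ : B}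
    (hDD : D₁ * D₂ = w ^ N) {f : F}
    (hdiv : ∀ V : ValuationSubring F, IsDiscreteValuationRing V →
      (∀ b : B, algebraMap B F b ∈ V) → (algebraMap B F w)⁻¹ ∈ V →
      ∃ h u₀ : F, u₀ ∈ V ∧ u₀⁻¹ ∈ V ∧ f = u₀ * h ^ m) (v₁ v₂ : ℤ) :
    ∀ V : ValuationSubring F, IsDiscreteValuationRing V →
      (∀ b : B, algebraMap B F b ∈ V) → (algebraMap B F w)⁻¹ ∈ V →
      ∃ h u₀ : F, u₀ ∈ V ∧ u₀⁻¹ ∈ V ∧ calib w D₁ N v₁ v₂ f = u₀ * h ^ m := by
  have hinj : Function.Injective (algebraMap B F) := IsFractionRing.injective B F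
  have hwK : algebraMap B F w ≠ 0 := fun h => hw (hinj (by rw [h, map_zero]))
  have key : I6.HorDivVal F w m (calib w D₁ N v₁ v₂ f) := by
    refine horDivVal_calibrate868 (fun V hV hR hπ => ?_) ?_ ?_ N _ _
    · obtain ⟨h, u₀, h1, h2, h3⟩ := hdiv V hV hR hπ
      exact ⟨h, u₀, h1, h2, h3⟩
    · intro V _ hR hπ
      refine ⟨hR D₁, ?_⟩
      have h2 : algebraMap B F D₁ * algebraMap B F D₂ = (algebraMap B F w) ^ N := by
        rw [← map_mul, hDD, map_pow]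
      have hD₁K : algebraMap B F D₁ ≠ 0 := by
        intro h0
        rw [h0, zero_mul] at h2
        exact pow_ne_zero N hwK h2.symm
      have hD₂K : algebraMap B F D₂ ≠ 0 := by
        intro h0
        rw [h0, mul_zero] at h2
        exact pow_ne_zero N hwK h2.symm
      have e : (algebraMap B F D₁)⁻¹ = algebraMap B F D₂ * ((algebraMap B F w)⁻¹) ^ N := by
        rw [inv_pow, ← h2]
        field_simp
      rw [e]
      exact V.mul_mem _ _ (hR D₂) (pow_mem hπ N)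
    · intro V _ hR hπ
      exact ⟨hR w, hπ⟩
  intro V hV hR hπ
  obtain ⟨h, u₀, h1, h2, h3⟩ := key V hV hR hπ
  exact ⟨h, u₀, h1, h2, h3⟩

/-- **Purity of the calibrated function at a crossing point.** -/
theorem exists_pureAt_tame_node {w : B} {m N : ℕ} (hm : m ≠ 0) (hN : 0 < N)
    (hcop : Nat.Coprime N m)
    (p₁ p₂ n : Ideal B) [p₁.IsPrime] [p₂.IsPrime] [n.IsPrime]
    [IsDedekindDomain (B ⧸ p₁)] [IsDedekindDomain (B ⧸ p₂)]
    (hinf : p₁ ⊓ p₂ = Ideal.span {w}) (h₁₂ : ¬ p₁ ≤ p₂) (h₂₁ : ¬ p₂ ≤ p₁)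
    (htr : (p₁ ⊔ p₂).IsRadical) (h₁ : p₁ ≤ n) (h₂ : p₂ ≤ n)
    (D₁ D₂ : B) (hDD : D₁ * D₂ = w ^ N) (hD₁ : D₁ ∉ p₁) (hD₂ : D₂ ∉ p₂)
    (f : F) (hf : f ≠ 0)
    (hdiv : ∀ V : ValuationSubring F, IsDiscreteValuationRing V →
      (∀ b : B, algebraMap B F b ∈ V) → (algebraMap B F w)⁻¹ ∈ V →
      ∃ h u₀ : F, u₀ ∈ V ∧ u₀⁻¹ ∈ V ∧ f = u₀ * h ^ m)
    (v₁ v₂ : ℤ) (hv₁ : I6.ValAt F p₁ w f v₁) (hv₂ : I6.ValAt F p₂ w f v₂) :
    ∃ d : F, d ≠ 0 ∧
      (∃ a b : B, a ∉ n ∧ b ∉ n ∧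
        calib w D₁ N v₁ v₂ f * d ^ m * algebraMap B F b = algebraMap B F a) ∧
      (∃ a b : B, a ∉ p₁ ∧ b ∉ p₁ ∧ d * algebraMap B F b = algebraMap B F a) ∧
      (∃ a b : B, a ∉ p₂ ∧ b ∉ p₂ ∧ d * algebraMap B F b = algebraMap B F a) := by
  obtain ⟨x, y, -, -, -, -, hnode⟩ :=
    H132.exists_isNode_locAt (F := F) p₁ p₂ n hinf h₁₂ h₂₁ htr h₁ h₂
  -- the unit pair in the node ring
  have hUP : I6.IsUnitPair (p₁.map (algebraMap B (locAt F n)))
      (p₂.map (algebraMap B (locAt F n))) (algebraMap B (locAt F n) w)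
      (algebraMap B (locAt F n) D₁) (algebraMap B (locAt F n) D₂) N :=
    { mul_eq := by rw [← map_mul, hDD, map_pow]
      hD := fun h => hD₁ ((algebraMap_mem_map_iff h₁ D₁).1 h)
      hD' := fun h => hD₂ ((algebraMap_mem_map_iff h₂ D₂).1 h) }
  -- horizontal divisibility in the node ring
  have hdiv' : I6.HorDivVal F (algebraMap B (locAt F n) w) m f := by
    intro V hV hR hπ
    obtain ⟨h, u₀, hu₀, hu₀', hfh⟩ := hdiv V hV
      (fun b => hR (algebraMap B (locAt F n) b)) hπ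
    exact ⟨h, u₀, hu₀, hu₀', hfh⟩
  -- branch valuations in the node ring
  have hv₁' : I6.ValAt F (p₁.map (algebraMap B (locAt F n))) (algebraMap B (locAt F n) w)
      f v₁ := by
    obtain ⟨a, b, ha, hb, hab⟩ := hv₁
    exact ⟨algebraMap B (locAt F n) a, algebraMap B (locAt F n) b,
      fun h => ha ((algebraMap_mem_map_iff h₁ a).1 h),
      fun h => hb ((algebraMap_mem_map_iff h₁ b).1 h), hab⟩
  have hv₂' : I6.ValAt F (p₂.map (algebraMap B (locAt F n))) (algebraMap B (locAt F n) w)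
      f v₂ := by
    obtain ⟨a, b, ha, hb, hab⟩ := hv₂
    exact ⟨algebraMap B (locAt F n) a, algebraMap B (locAt F n) b,
      fun h => ha ((algebraMap_mem_map_iff h₂ a).1 h),
      fun h => hb ((algebraMap_mem_map_iff h₂ b).1 h), hab⟩
  obtain ⟨d, ε, hd0, hdε, hd₁, hd₂⟩ := tame_node hnode hN hUP hm hcop hf hdiv' hv₁' hv₂'
  refine ⟨d, hd0, ?_, ?_, ?_⟩
  · obtain ⟨a', s', ha', hs', h'⟩ := exists_frac_of_isUnit_locAt (F := F) n ε.isUnit
    refine ⟨a', s', ha', hs', ?_⟩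
    rw [← h']
    congr 1
  · obtain ⟨a, b, ha, hb, hab⟩ := hd₁
    obtain ⟨φ, s, hφ, hs, h'⟩ := exists_frac_of_notMem_map (F := F) (p := p₁) (n := n) ha
    obtain ⟨ψ, t, hψ, ht, h''⟩ := exists_frac_of_notMem_map (F := F) (p := p₁) (n := n) hb
    have hinj : Function.Injective (algebraMap B F) := IsFractionRing.injective B F
    have hsF : algebraMap B F s ≠ 0 := fun h0 =>
      hs (by rw [hinj (by rw [h0, map_zero] : algebraMap B F s = algebraMap B F 0)]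
             exact n.zero_mem)
    have htF : algebraMap B F t ≠ 0 := fun h0 =>
      ht (by rw [hinj (by rw [h0, map_zero] : algebraMap B F t = algebraMap B F 0)]
             exact n.zero_mem)
    refine ⟨φ * t, ψ * s, ?_, ?_, ?_⟩
    · intro h
      rcases Ideal.IsPrime.mem_or_mem inferInstance h with h3 | h3
      · exact hφ h3
      · exact ht (h₁ h3)
    · intro h
      rcases Ideal.IsPrime.mem_or_mem inferInstance h with h3 | h3
      · exact hψ h3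
      · exact hs (h₁ h3)
    · have hab' : d * (b : F) = (a : F) := by
        have := hab
        simpa using this
      rw [map_mul, map_mul, ← h', ← h'']
      linear_combination (algebraMap B F t * algebraMap B F s) * hab'
  · obtain ⟨a, b, ha, hb, hab⟩ := hd₂
    obtain ⟨φ, s, hφ, hs, h'⟩ := exists_frac_of_notMem_map (F := F) (p := p₂) (n := n) ha
    obtain ⟨ψ, t, hψ, ht, h''⟩ := exists_frac_of_notMem_map (F := F) (p := p₂) (n := n) hb
    refine ⟨φ * t, ψ * s, ?_, ?_, ?_⟩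
    · intro h
      rcases Ideal.IsPrime.mem_or_mem inferInstance h with h3 | h3
      · exact hφ h3
      · exact ht (h₂ h3)
    · intro h
      rcases Ideal.IsPrime.mem_or_mem inferInstance h with h3 | h3
      · exact hψ h3
      · exact hs (h₂ h3)
    · have hab' : d * (b : F) = (a : F) := by
        have := hab
        simpa using this
      rw [map_mul, map_mul, ← h', ← h'']
      linear_combination (algebraMap B F t * algebraMap B F s) * hab'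

/-- **Purity of the calibrated function at every point of the special fibre** (core form). -/
theorem exists_pureAt_tame_core {w : B} {m N : ℕ} (hm : m ≠ 0) (hN : 0 < N)
    (hcop : Nat.Coprime N m)
    (p₁ p₂ n : Ideal B) [p₁.IsPrime] [p₂.IsPrime] [n.IsPrime]
    [IsDedekindDomain (B ⧸ p₁)] [IsDedekindDomain (B ⧸ p₂)]
    (hinf : p₁ ⊓ p₂ = Ideal.span {w}) (h₁₂ : ¬ p₁ ≤ p₂) (h₂₁ : ¬ p₂ ≤ p₁)
    (htr : (p₁ ⊔ p₂).IsRadical) (hwn : w ∈ n)
    (D₁ D₂ : B) (hDD : D₁ * D₂ = w ^ N) (hD₁ : D₁ ∉ p₁) (hD₂ : D₂ ∉ p₂)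
    (f : F) (hf : f ≠ 0)
    (hdiv : ∀ V : ValuationSubring F, IsDiscreteValuationRing V →
      (∀ b : B, algebraMap B F b ∈ V) → (algebraMap B F w)⁻¹ ∈ V →
      ∃ h u₀ : F, u₀ ∈ V ∧ u₀⁻¹ ∈ V ∧ f = u₀ * h ^ m)
    (v₁ v₂ : ℤ) (hv₁ : I6.ValAt F p₁ w f v₁) (hv₂ : I6.ValAt F p₂ w f v₂) :
    ∃ d : F, d ≠ 0 ∧
      (∃ a b : B, a ∉ n ∧ b ∉ n ∧
        calib w D₁ N v₁ v₂ f * d ^ m * algebraMap B F b = algebraMap B F a) ∧
      (∃ a b : B, a ∉ p₁ ∧ b ∉ p₁ ∧ d * algebraMap B F b = algebraMap B F a) ∧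
      (∃ a b : B, a ∉ p₂ ∧ b ∉ p₂ ∧ d * algebraMap B F b = algebraMap B F a) := by
  have hw0 : w ≠ 0 := Fermat.Agent.A2.H609.ne_zero_of_inf_eq_span p₁ p₂ hinf h₁₂ h₂₁
  have hV₁ : VertData w p₁ p₂ := ⟨inferInstance, hw0, h₂₁, hinf⟩
  have hV₂ : VertData w p₂ p₁ := ⟨inferInstance, hw0, h₁₂, by rw [inf_comm]; exact hinf⟩
  have hG₁ := valAt_calib₁ (N := N) hV₁ hD₁ hv₁ v₂
  have hG₂ := valAt_calib₂ hV₂ hDD hD₂ v₁ hv₂
  have hU₁ : UnitAt p₁ (calib w D₁ N v₁ v₂ f) := by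
    obtain ⟨a, b, ha, hb, hab⟩ := hG₁
    exact ⟨a, b, ha, hb, by rw [hab, zpow_zero, one_mul]⟩
  have hU₂ : UnitAt p₂ (calib w D₁ N v₁ v₂ f) := by
    obtain ⟨a, b, ha, hb, hab⟩ := hG₂
    exact ⟨a, b, ha, hb, by rw [hab, zpow_zero, one_mul]⟩
  have hGdiv := hdiv_calib hw0 hN hDD hdiv v₁ v₂
  have h1 : (1 : B) ∉ p₁ := fun h1 =>
    (inferInstance : p₁.IsPrime).ne_top ((Ideal.eq_top_iff_one _).2 h1)
  have h1' : (1 : B) ∉ p₂ := fun h1 =>
    (inferInstance : p₂.IsPrime).ne_top ((Ideal.eq_top_iff_one _).2 h1)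
  have hone₁ : ∃ a b : B, a ∉ p₁ ∧ b ∉ p₁ ∧ (1 : F) * algebraMap B F b = algebraMap B F a :=
    ⟨1, 1, h1, h1, by simp⟩
  have hone₂ : ∃ a b : B, a ∉ p₂ ∧ b ∉ p₂ ∧ (1 : F) * algebraMap B F b = algebraMap B F a :=
    ⟨1, 1, h1', h1', by simp⟩
  have hor : p₁ ≤ n ∨ p₂ ≤ n := by
    have hle : p₁ * p₂ ≤ n := by
      refine le_trans Ideal.mul_le_inf ?_
      rw [hinf, Ideal.span_le, Set.singleton_subset_iff]
      exact hwn
    exact (Ideal.IsPrime.mul_le inferInstance).1 hle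
  by_cases hboth : p₁ ≤ n ∧ p₂ ≤ n
  · exact exists_pureAt_tame_node hm hN hcop p₁ p₂ n hinf h₁₂ h₂₁ htr hboth.1 hboth.2 D₁ D₂ hDD
      hD₁ hD₂ f hf hdiv v₁ v₂ hv₁ hv₂
  rcases hor with h | h
  · have h2 : ¬ p₂ ≤ n := fun h' => hboth ⟨h, h'⟩
    by_cases hne : p₁ = n
    · refine ⟨1, one_ne_zero, ?_, hone₁, hone₂⟩
      obtain ⟨a, b, ha, hb, hab⟩ := hU₁
      exact ⟨a, b, hne ▸ ha, hne ▸ hb, by rw [one_pow, mul_one, hab]⟩
    · exact Fermat.Agent.Ribet.H644.exists_pureAt_smooth_of_unitAt (B := B) (F := F) hm p₁ p₂ n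
        hinf h₁₂ h₂₁ h hne h2 _ hGdiv hU₁
  · have h2 : ¬ p₁ ≤ n := fun h' => hboth ⟨h', h⟩
    by_cases hne : p₂ = n
    · refine ⟨1, one_ne_zero, ?_, hone₁, hone₂⟩
      obtain ⟨a, b, ha, hb, hab⟩ := hU₂
      exact ⟨a, b, hne ▸ ha, hne ▸ hb, by rw [one_pow, mul_one, hab]⟩
    · obtain ⟨d, hd, hdn, hd₂', hd₁'⟩ :=
        Fermat.Agent.Ribet.H644.exists_pureAt_smooth_of_unitAt (B := B) (F := F) hm p₂ p₁ n
          (by rw [inf_comm]; exact hinf) h₂₁ h₁₂ h hne h2 _ hGdiv hU₂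
      exact ⟨d, hd, hdn, hd₁', hd₂'⟩

end Core

section AlgChart

open Fermat.Agent.A2.Alg Fermat.Agent.A2.Alg.H609

variable {R E F : Type} [CommRing R] [IsDomain R] [IsDiscreteValuationRing R]
  [Field E] [CharZero E] [Algebra R E] [IsFractionRing R E]
  [Field F] [Algebra E F] [Algebra R F] [IsScalarTower R E F]

/-- **TAME purity on a chart** (`A2.Alg` vocabulary): the calibrated Kummer generator is pure at
every point of the special fibre of a semistable chart carrying a unit pair of exponent `N`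
prime to `m`. -/
theorem pureAt_tame (m N : ℕ) (hm : 0 < m) (hN : 0 < N) (hcop : Nat.Coprime N m)
    (w : R) (x : F) (B : Subalgebra R F) (hB : ChartCtx E w x B) (c : SSChart w B)
    (D₁ D₂ : B) (hDD : D₁ * D₂ = (algebraMap R B w) ^ N) (hD₁ : D₁ ∉ c.p₁) (hD₂ : D₂ ∉ c.p₂)
    (f : F) (hf : f ≠ 0) (hdiv : DivisibleDiv E m f)
    (v₁ v₂ : ℤ) (hv₁ : I6.ValAt F c.p₁ (algebraMap R B w) f v₁)
    (hv₂ : I6.ValAt F c.p₂ (algebraMap R B w) f v₂)
    (n : Ideal B) (hn : n.IsPrime) (hwn : algebraMap R B w ∈ n) :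
    PureAt B c m (calib (algebraMap R B w) D₁ N v₁ v₂ f) n := by
  obtain ⟨hnoeth, hic, hfrac⟩ := H34.chart_instances' w x B hB
  have hp₁ : c.p₁.IsPrime := c.prime₁
  have hp₂ : c.p₂.IsPrime := c.prime₂
  have hn₁ : IsIntegrallyClosed (B ⧸ c.p₁) := c.normal₁
  have hn₂ : IsIntegrallyClosed (B ⧸ c.p₂) := c.normal₂
  have hw : algebraMap R B w ∈ c.p₁ ⊓ c.p₂ := by
    rw [c.inf_eq]
    exact Ideal.mem_span_singleton_self _
  have hd₁ : IsDedekindDomain (B ⧸ c.p₁) := isDedekindDomain_quotient_chart w x B hB c.p₁ hw.1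
  have hd₂ : IsDedekindDomain (B ⧸ c.p₂) := isDedekindDomain_quotient_chart w x B hB c.p₂ hw.2
  exact exists_pureAt_tame_core (B := B) (F := F) hm.ne' hN hcop c.p₁ c.p₂ n c.inf_eq
    c.not_le₁₂ c.not_le₂₁ c.transversal hwn D₁ D₂ hDD hD₁ hD₂ f hf
    (Fermat.Agent.A2.Alg.H609.hdiv_of_divisibleDiv w hB.hw B m f hdiv) v₁ v₂ hv₁ hv₂

/-- The calibrated function is a unit on both components. -/
theorem locUnit_calib (N : ℕ)
    (w : R) (x : F) (B : Subalgebra R F) (hB : ChartCtx E w x B) (c : SSChart w B)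
    (D₁ D₂ : B) (hDD : D₁ * D₂ = (algebraMap R B w) ^ N) (hD₁ : D₁ ∉ c.p₁) (hD₂ : D₂ ∉ c.p₂)
    (f : F) (v₁ v₂ : ℤ) (hv₁ : I6.ValAt F c.p₁ (algebraMap R B w) f v₁)
    (hv₂ : I6.ValAt F c.p₂ (algebraMap R B w) f v₂) :
    LocUnit B c.p₁ (calib (algebraMap R B w) D₁ N v₁ v₂ f) ∧
      LocUnit B c.p₂ (calib (algebraMap R B w) D₁ N v₁ v₂ f) := by
  obtain ⟨hnoeth, hic, hfrac⟩ := H34.chart_instances' w x B hB
  have hp₁ : c.p₁.IsPrime := c.prime₁
  have hp₂ : c.p₂.IsPrime := c.prime₂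
  have hw0 : algebraMap R B w ≠ 0 :=
    Fermat.Agent.A2.H609.ne_zero_of_inf_eq_span c.p₁ c.p₂ c.inf_eq c.not_le₁₂ c.not_le₂₁
  have hV₁ : VertData (algebraMap R B w) c.p₁ c.p₂ := ⟨c.prime₁, hw0, c.not_le₂₁, c.inf_eq⟩
  have hV₂ : VertData (algebraMap R B w) c.p₂ c.p₁ :=
    ⟨c.prime₂, hw0, c.not_le₁₂, by rw [inf_comm]; exact c.inf_eq⟩
  constructor
  · obtain ⟨a, b, ha, hb, hab⟩ := valAt_calib₁ (F := F) (N := N) hV₁ hD₁ hv₁ v₂
    exact ⟨a, b, ha, hb, by rw [show (b : F) = algebraMap B F b from rfl, hab, zpow_zero, one_mul]; rfl⟩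
  · obtain ⟨a, b, ha, hb, hab⟩ := valAt_calib₂ (F := F) hV₂ hDD hD₂ v₁ hv₂
    exact ⟨a, b, ha, hb, by rw [show (b : F) = algebraMap B F b from rfl, hab, zpow_zero, one_mul]; rfl⟩

/-- Branch valuations exist on a chart. -/
theorem exists_valAt_chart
    (w : R) (x : F) (B : Subalgebra R F) (hB : ChartCtx E w x B) (c : SSChart w B)
    (f : F) (hf : f ≠ 0) :
    ∃ v₁ v₂ : ℤ, I6.ValAt F c.p₁ (algebraMap R B w) f v₁ ∧
      I6.ValAt F c.p₂ (algebraMap R B w) f v₂ := by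
  obtain ⟨hnoeth, hic, hfrac⟩ := H34.chart_instances' w x B hB
  have hp₁ : c.p₁.IsPrime := c.prime₁
  have hp₂ : c.p₂.IsPrime := c.prime₂
  have hw0 : algebraMap R B w ≠ 0 :=
    Fermat.Agent.A2.H609.ne_zero_of_inf_eq_span c.p₁ c.p₂ c.inf_eq c.not_le₁₂ c.not_le₂₁
  have hV₁ : VertData (algebraMap R B w) c.p₁ c.p₂ := ⟨c.prime₁, hw0, c.not_le₂₁, c.inf_eq⟩
  have hV₂ : VertData (algebraMap R B w) c.p₂ c.p₁ :=
    ⟨c.prime₂, hw0, c.not_le₁₂, by rw [inf_comm]; exact c.inf_eq⟩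
  obtain ⟨v₁, h₁⟩ := H132.exists_valAt (K := F) hV₁ hf
  obtain ⟨v₂, h₂⟩ := H132.exists_valAt (K := F) hV₂ hf
  exact ⟨v₁, v₂, h₁, h₂⟩

end AlgChart

end Fermat.Agent.Ribet.H868
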