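import Fermat.Agent.Ribet.H868.NodePure
import Fermat.Agent.Ribet.H403.NodeRelVal
import Fermat.Agent.Ribet.H403.NodeRel

/-!
# RIBET rows 37/38, TAME package: the tame node relation, purity form (helper868)

`R` a node ring (`H704.I6.IsNode 𝔭₁ 𝔭₂ π x y`), `K = Frac R`, `(D₁, D₂)` a unit pair of exponent
`N > 0` prime to `m`, `f ∈ Kˣ` horizontally `m`-divisible with branch valuations `v₁`, `v₂`.

* `tame_node` : the calibrated function `G = f ^ N · D₁ ^ (v₁ - v₂) · π ^ (- N v₁)` is PURE at the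
  node: `G · d ^ m ∈ Rˣ` for some `d ∈ Kˣ` which is a unit on both branches.

Proof: `v₁(G) = v₂(G) = 0`; slope of `G` along `𝔭₂` is `N s₂(f) - (v₁ - v₂) ord₂(D₂)`;
`ord₂(D₂) = ord₁(D₁)` (`H403.nodeRelExact_403`), so the slope is `≡ 0 mod m` by the node relation
`H403.nodeRelVal_403`; conclude with `H868.nodePure`.

Helpers: `valAt_zpow868`, `slopeAt_zpow868`, calculus of `I6.HorDivVal`.
-/

set_option autoImplicit false
set_option linter.unusedSectionVars false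
set_option linter.style.haveILetI false

namespace Fermat.Agent.Ribet.H868

open IsLocalRing Fermat.Agent.Ribet.H704 Fermat.Agent.A2 Fermat.Agent.A2.Alg.H132

section ZPow

variable {R : Type*} [CommRing R] [IsDomain R] [IsNoetherianRing R] [IsIntegrallyClosed R]
variable {K : Type*} [Field K] [Algebra R K] [IsFractionRing R K]
variable {π ϖ : R} {𝔭 𝔮 : Ideal R}

theorem valAt_zpow868 (h : VertData π 𝔭 𝔮) {u : K} {v : ℤ} (hv : I6.ValAt K 𝔭 π u v) (z : ℤ) :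
    I6.ValAt K 𝔭 π (u ^ z) (z * v) := by
  rcases Int.eq_nat_or_neg z with ⟨n, rfl | rfl⟩
  · rw [zpow_natCast]
    exact H132.valAt_pow h hv n
  · rw [zpow_neg, zpow_natCast]
    have := H132.valAt_inv h (H132.valAt_pow h hv n)
    have e : -((n : ℤ) * v) = -(n : ℤ) * v := by ring
    rwa [e] at this

theorem slopeAt_zpow868 (h : H132.BranchData π 𝔭 𝔮 ϖ) {u : K} {s : ℤ}
    (hs : I6.SlopeAt K 𝔭 π ϖ u s) (z : ℤ) : I6.SlopeAt K 𝔭 π ϖ (u ^ z) (z * s) := by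
  rcases Int.eq_nat_or_neg z with ⟨n, rfl | rfl⟩
  · rw [zpow_natCast]
    exact H132.slopeAt_pow h hs n
  · rw [zpow_neg, zpow_natCast]
    have := H132.slopeAt_inv h (H132.slopeAt_pow h hs n)
    have e : -((n : ℤ) * s) = -(n : ℤ) * s := by ring
    rwa [e] at this

end ZPow

section HorDivValCalc

variable {R : Type*} [CommRing R] {K : Type*} [Field K] [Algebra R K]

/-- Integer powers of a unit of a valuation subring. -/
theorem zpow_mem_of_unit868 (V : ValuationSubring K) {a : K} (ha : a ∈ V) (ha' : a⁻¹ ∈ V)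
    (z : ℤ) : a ^ z ∈ V ∧ (a ^ z)⁻¹ ∈ V := by
  rcases Int.eq_nat_or_neg z with ⟨n, rfl | rfl⟩
  · rw [zpow_natCast, ← inv_pow]
    exact ⟨pow_mem ha n, pow_mem ha' n⟩
  · rw [zpow_neg, zpow_natCast, inv_inv, ← inv_pow]
    exact ⟨pow_mem ha' n, pow_mem ha n⟩

/-- `f ^ N · a ^ z · b ^ z'` is horizontally `m`-divisible when `f` is and `a`, `b` are units at
every horizontal valuation. -/
theorem horDivVal_calibrate868 {π : R} {m : ℕ} {f a b : K} (hf : I6.HorDivVal K π m f)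
    (ha : ∀ V : ValuationSubring K, IsDiscreteValuationRing V →
      (∀ r : R, algebraMap R K r ∈ V) → (algebraMap R K π)⁻¹ ∈ V → a ∈ V ∧ a⁻¹ ∈ V)
    (hb : ∀ V : ValuationSubring K, IsDiscreteValuationRing V →
      (∀ r : R, algebraMap R K r ∈ V) → (algebraMap R K π)⁻¹ ∈ V → b ∈ V ∧ b⁻¹ ∈ V)
    (N : ℕ) (z z' : ℤ) : I6.HorDivVal K π m (f ^ N * a ^ z * b ^ z') := by
  intro V hV hR hπ
  obtain ⟨g, u₀, hu₀, hu₀', hfg⟩ := hf V hV hR hπ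
  obtain ⟨ha1, ha2⟩ := ha V hV hR hπ
  obtain ⟨hb1, hb2⟩ := hb V hV hR hπ
  obtain ⟨haz, haz'⟩ := zpow_mem_of_unit868 V ha1 ha2 z
  obtain ⟨hbz, hbz'⟩ := zpow_mem_of_unit868 V hb1 hb2 z'
  refine ⟨g ^ N, u₀ ^ N * a ^ z * b ^ z', ?_, ?_, ?_⟩
  · exact V.mul_mem _ _ (V.mul_mem _ _ (pow_mem hu₀ N) haz) hbz
  · rw [mul_inv, mul_inv, ← inv_pow]
    exact V.mul_mem _ _ (V.mul_mem _ _ (pow_mem hu₀' N) haz') hbz'
  · rw [hfg]
    ring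

end HorDivValCalc

section Main

variable {R K : Type} [CommRing R] [IsDomain R] [IsIntegrallyClosed R] [IsNoetherianRing R]
  [IsLocalRing R] [Field K] [Algebra R K] [IsFractionRing R K]

/-- In a unit pair, the two orders agree: `ord₂ D₂ = ord₁ D₁`. -/
theorem unitPair_ord_symm868 {𝔭₁ 𝔭₂ : Ideal R} {π x y : R} (hN : I6.IsNode 𝔭₁ 𝔭₂ π x y)
    {N : ℕ} {D₁ D₂ : R} (hNpos : 0 < N) (hDD : I6.IsUnitPair 𝔭₁ 𝔭₂ π D₁ D₂ N)
    {k₁ k₂ : ℕ} (hk₁ : I6.OrdOn 𝔭₁ x D₁ k₁) (hk₂ : I6.OrdOn 𝔭₂ y D₂ k₂) : k₂ = k₁ := by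
  have h1 : (1 : R) ∉ 𝔭₁ := fun h => hN.prime₁.ne_top ((Ideal.eq_top_iff_one _).2 h)
  have hnh : I6.NoHorZero π D₂ := by
    intro 𝔓 h𝔓 hD
    have : π ^ N ∈ 𝔓 := by
      rw [← hDD.mul_eq]
      exact 𝔓.mul_mem_left _ hD
    exact h𝔓.mem_of_pow_mem N this
  have := H403.nodeRelExact_403 R 𝔭₁ 𝔭₂ π x y hN N D₁ D₂ hNpos hDD D₂ 1 D₁ N hDD.hD' h1 hDD.hD
    (by rw [mul_comm, hDD.mul_eq, mul_one]) hnh k₂ k₁ hk₂ hk₁
  exact Nat.eq_of_mul_eq_mul_left hNpos this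

/-- **TAME node relation, purity form.** -/
theorem tame_node {𝔭₁ 𝔭₂ : Ideal R} {π x y : R} (hN : I6.IsNode 𝔭₁ 𝔭₂ π x y)
    {N : ℕ} {D₁ D₂ : R} (hNpos : 0 < N) (hDD : I6.IsUnitPair 𝔭₁ 𝔭₂ π D₁ D₂ N)
    {m : ℕ} (hm : m ≠ 0) (hcop : Nat.Coprime N m)
    {f : K} (hf : f ≠ 0) (hdiv : I6.HorDivVal K π m f)
    {v₁ v₂ : ℤ} (hv₁ : I6.ValAt K 𝔭₁ π f v₁) (hv₂ : I6.ValAt K 𝔭₂ π f v₂) :
    ∃ (d : K) (ε : Rˣ), d ≠ 0 ∧
      (f ^ N * (algebraMap R K D₁) ^ (v₁ - v₂) * (algebraMap R K π) ^ (-(N : ℤ) * v₁)) * d ^ m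
        = algebraMap R K (ε : R) ∧
      I6.ValAt K 𝔭₁ π d 0 ∧ I6.ValAt K 𝔭₂ π d 0 := by
  have hb₁ := H132.branchData_left hN
  have hb₂ := H132.branchData_right hN
  have hπ0 : π ≠ 0 := H132.isNode_pi_ne_zero hN
  have hπK : algebraMap R K π ≠ 0 := fun h =>
    hπ0 (IsFractionRing.injective R K (by rw [h, map_zero]))
  have h1₁ : (1 : R) ∉ 𝔭₁ := fun h => hN.prime₁.ne_top ((Ideal.eq_top_iff_one _).2 h)
  have h1₂ : (1 : R) ∉ 𝔭₂ := fun h => hN.prime₂.ne_top ((Ideal.eq_top_iff_one _).2 h)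
  obtain ⟨s, hs⟩ := H132.exists_slopeAt (K := K) hb₂ hf
  obtain ⟨k₁, hk₁⟩ := hN.unif₁ D₁ hDD.hD
  obtain ⟨k₂, hk₂⟩ := hN.unif₂ D₂ hDD.hD'
  have hk : k₂ = k₁ := unitPair_ord_symm868 hN hNpos hDD hk₁ hk₂
  have hrel := H403.nodeRelVal_403 R K 𝔭₁ 𝔭₂ π x y hN m N hm hcop D₁ D₂ hDD f hf hdiv
    v₁ v₂ s k₁ hv₁ hv₂ hs hk₁
  -- the data of `D₁` and `π`
  have hDDK : algebraMap R K D₁ * algebraMap R K D₂ = (algebraMap R K π) ^ (N : ℤ) * 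
      algebraMap R K 1 := by
    rw [← map_mul, hDD.mul_eq, map_pow, map_one, mul_one, zpow_natCast]
  have hD₁v₁ : I6.ValAt K 𝔭₁ π (algebraMap R K D₁) 0 := H132.valAt_of_notMem hb₁.vert hDD.hD
  have hD₁v₂ : I6.ValAt K 𝔭₂ π (algebraMap R K D₁) N := ⟨1, D₂, h1₂, hDD.hD', hDDK⟩
  have hD₁s : I6.SlopeAt K 𝔭₂ π y (algebraMap R K D₁) (-(k₂ : ℤ)) :=
    ⟨N, 1, D₂, 0, k₂, h1₂, hDD.hD', hDDK, H132.ordOn_one, hk₂, by simp⟩
  have hπv₁ : I6.ValAt K 𝔭₁ π (algebraMap R K π) 1 := H132.valAt_pi hb₁.vert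
  have hπv₂ : I6.ValAt K 𝔭₂ π (algebraMap R K π) 1 := H132.valAt_pi hb₂.vert
  have hπs : I6.SlopeAt K 𝔭₂ π y (algebraMap R K π) 0 := H132.slopeAt_pi hb₂
  set G : K := f ^ N * (algebraMap R K D₁) ^ (v₁ - v₂) * (algebraMap R K π) ^ (-(N : ℤ) * v₁)
    with hG
  have hG₁ : I6.ValAt K 𝔭₁ π G 0 := by
    have := H132.valAt_mul hb₁.vert (H132.valAt_mul hb₁.vert (H132.valAt_pow hb₁.vert hv₁ N)
      (valAt_zpow868 hb₁.vert hD₁v₁ (v₁ - v₂))) (valAt_zpow868 hb₁.vert hπv₁ (-(N : ℤ) * v₁))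
    have e : (N : ℤ) * v₁ + (v₁ - v₂) * 0 + -(N : ℤ) * v₁ * 1 = 0 := by ring
    rwa [e] at this
  have hG₂ : I6.ValAt K 𝔭₂ π G 0 := by
    have := H132.valAt_mul hb₂.vert (H132.valAt_mul hb₂.vert (H132.valAt_pow hb₂.vert hv₂ N)
      (valAt_zpow868 hb₂.vert hD₁v₂ (v₁ - v₂))) (valAt_zpow868 hb₂.vert hπv₂ (-(N : ℤ) * v₁))
    have e : (N : ℤ) * v₂ + (v₁ - v₂) * N + -(N : ℤ) * v₁ * 1 = 0 := by ring
    rwa [e] at this
  have hGs : I6.SlopeAt K 𝔭₂ π y G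
      ((N : ℤ) * s + (v₁ - v₂) * (-(k₂ : ℤ)) + -(N : ℤ) * v₁ * 0) :=
    H132.slopeAt_mul hb₂ (H132.slopeAt_mul hb₂ (H132.slopeAt_pow hb₂ hs N)
      (slopeAt_zpow868 hb₂ hD₁s (v₁ - v₂))) (slopeAt_zpow868 hb₂ hπs (-(N : ℤ) * v₁))
  have hGdvd : (m : ℤ) ∣ (N : ℤ) * s + (v₁ - v₂) * (-(k₂ : ℤ)) + -(N : ℤ) * v₁ * 0 := by
    have e : (N : ℤ) * s + (v₁ - v₂) * (-(k₂ : ℤ)) + -(N : ℤ) * v₁ * 0
        = (N : ℤ) * s - (v₁ - v₂) * k₁ := by rw [hk]; ring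
    rw [e]
    exact hrel
  have hGdiv : I6.HorDivVal K π m G := by
    refine horDivVal_calibrate868 hdiv ?_ ?_ N _ _
    · intro V _ hR hπ
      refine ⟨hR D₁, ?_⟩
      have hD₂K : algebraMap R K D₂ ≠ 0 := by
        intro h0
        have : (algebraMap R K π) ^ N = 0 := by
          rw [← map_pow, ← hDD.mul_eq, map_mul, h0, mul_zero]
        exact hπK (pow_eq_zero_iff (Nat.pos_iff_ne_zero.mp hNpos) |>.mp this)
      have hD₁K : algebraMap R K D₁ ≠ 0 := by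
        intro h0
        have : (algebraMap R K π) ^ N = 0 := by
          rw [← map_pow, ← hDD.mul_eq, map_mul, h0, zero_mul]
        exact hπK (pow_eq_zero_iff (Nat.pos_iff_ne_zero.mp hNpos) |>.mp this)
      have e : (algebraMap R K D₁)⁻¹ = algebraMap R K D₂ * ((algebraMap R K π)⁻¹) ^ N := by
        have h2 : algebraMap R K D₁ * algebraMap R K D₂ = (algebraMap R K π) ^ N := by
          rw [← map_mul, hDD.mul_eq, map_pow]
        rw [inv_pow, ← h2]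
        field_simp
      rw [e]
      exact V.mul_mem _ _ (hR D₂) (pow_mem hπ N)
    · intro V _ hR hπ
      exact ⟨hR π, hπ⟩
  exact nodePure R K 𝔭₁ 𝔭₂ π x y hN N D₁ D₂ hNpos hDD m hm G hGdiv hG₁ hG₂ _ hGs hGdvd

end Main

end Fermat.Agent.Ribet.H868
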