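import Fermat.Agent.A2.IF.H429.IF
import Fermat.Agent.A2.Mod.Spec

/-!
# RIBET rows 37/38, TAME package: the inertia field is a good level with uniformiser `q`
  (helper868)

`P` a valuation subring of `ℚ̄` over the prime `q`, `E = ℚ̄^{I_P}` the inertia field
(`A2.IF.H429.inertiaField P`), `R_E = P ∩ E`.

* `goodField_inertiaField` : `E` is a good level (`A2.GoodField P E`);
* `irreducible_natCast_inertiaField` : `q` is a uniformiser of `R_E` (the inertia field is
  unramified, `A2.IF.H429.exists_zpow_of_mem_inertiaField`);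
* `setting_inertiaField` : the standing hypotheses `A2.Mod.Setting P E M q q` of the MOD leaves.
-/

set_option autoImplicit false
set_option linter.unusedSectionVars false

namespace Fermat.Agent.Ribet.H868

open Fermat.Agent.A2 Fermat.Agent.A2.IF.H429

variable (P : ValuationSubring Qb) (q : ℕ)

/-- The inertia field is a good level. -/
theorem goodField_inertiaField (hq : q.Prime) (hP : P.LiesOverPrime q) :
    GoodField P (inertiaField P) where
  stable := fun τ hτ e he => by
    rw [(mem_inertiaField_iff P).mp he τ hτ]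
    exact he
  dvr := isDiscreteValuationRing_RE_of_pow P q hq hP (inertiaField P) 1 one_pos
    (fun x hx hx0 => by
      obtain ⟨k, hk⟩ := exists_zpow_of_mem_inertiaField P q hq hP x hx hx0
      refine ⟨k, ?_⟩
      rw [pow_one]
      have hq0 : P.valuation (q : Qb) ≠ 0 := valuation_natCast_ne_zero P q hq
      rw [map_div₀, map_zpow₀] at hk
      exact (div_eq_one_iff_eq (zpow_ne_zero k hq0)).mp hk)
  henselian := henselian_RE P (inertiaField P) le_rfl
  algClosed := isAlgClosed_residueField_RE P (inertiaField P) q hq hP le_rfl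
  trivial_mod := fun _ hτ _ _ heP => sub_mem_nonunits_of_inertia P hτ heP
  finite_order := fun τ hτ => ⟨1, one_pos, fun e he => by
    rw [Function.iterate_one]
    exact (mem_inertiaField_iff P).mp he τ hτ⟩

/-- Every nonzero element of `R_E`, `E` the inertia field, is associated to a power of `q`. -/
theorem associated_natCast_pow_inertiaField (hq : q.Prime) (hP : P.LiesOverPrime q)
    (x : RE P (inertiaField P)) (hx : x ≠ 0) :
    ∃ n : ℕ, Associated x (((q : ℕ) : RE P (inertiaField P)) ^ n) := by
  have hqlt := valuation_natCast_lt_one P q hP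
  have hq0 := valuation_natCast_ne_zero P q hq
  have hqpos : 0 < P.valuation (q : Qb) := zero_lt_iff.mpr hq0
  have hcoe : ∀ n : ℕ, ((((n : ℕ) : RE P (inertiaField P)) : inertiaField P) : Qb) = (n : Qb) := by
    intro n
    simp
  have hxE : ((x : inertiaField P) : Qb) ∈ inertiaField P := (x : inertiaField P).2
  have hx0 : ((x : inertiaField P) : Qb) ≠ 0 := by
    intro h0
    apply hx
    apply Subtype.ext
    apply Subtype.ext
    exact h0
  have hxP : ((x : inertiaField P) : Qb) ∈ P := x.2
  obtain ⟨k, hk⟩ := exists_zpow_of_mem_inertiaField P q hq hP _ hxE hx0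
  rw [map_div₀, map_zpow₀] at hk
  have hk' : P.valuation ((x : inertiaField P) : Qb) = P.valuation (q : Qb) ^ k :=
    (div_eq_one_iff_eq (zpow_ne_zero k hq0)).mp hk
  have hle : P.valuation ((x : inertiaField P) : Qb) ≤ 1 := (P.valuation_le_one_iff _).mpr hxP
  have hk0 : 0 ≤ k := by
    by_contra hneg
    rw [not_le] at hneg
    have h1 : 1 < P.valuation (q : Qb) ^ k := by
      obtain ⟨m, hm⟩ : ∃ m : ℕ, k = -((m : ℤ) + 1) := ⟨(-k - 1).toNat, by omega⟩
      rw [hm, zpow_neg]
      have h2 : P.valuation (q : Qb) ^ ((m : ℤ) + 1) < 1 := by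
        have : P.valuation (q : Qb) ^ ((m : ℤ) + 1) = P.valuation (q : Qb) ^ (m + 1) := by
          exact_mod_cast zpow_natCast (P.valuation (q : Qb)) (m + 1)
        rw [this]
        exact pow_lt_one₀ zero_le hqlt (Nat.succ_ne_zero m)
      have h3 : 0 < P.valuation (q : Qb) ^ ((m : ℤ) + 1) := zpow_pos hqpos _
      exact (one_lt_inv₀ h3).mpr h2
    rw [← hk'] at h1
    exact absurd hle (not_le.mpr h1)
  obtain ⟨n, rfl⟩ := Int.eq_ofNat_of_zero_le hk0
  rw [zpow_natCast] at hk'
  refine ⟨n, ?_⟩
  let u : Qb := ((x : inertiaField P) : Qb) / (q : Qb) ^ n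
  have huv : P.valuation u = 1 := by
    show P.valuation (((x : inertiaField P) : Qb) / (q : Qb) ^ n) = 1
    rw [map_div₀, hk', map_pow]
    exact div_self (pow_ne_zero n hq0)
  have huE : u ∈ inertiaField P := div_mem hxE (pow_mem (natCast_mem (inertiaField P) q) n)
  have huP : u ∈ P := (P.valuation_le_one_iff _).mp huv.le
  let uR : RE P (inertiaField P) := ⟨⟨u, huE⟩, huP⟩
  have huR : IsUnit uR := by
    rw [← IsLocalRing.notMem_maximalIdeal, mem_maximalIdeal_RE_iff,
      ValuationSubring.mem_nonunits_iff]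
    show ¬ P.valuation u < 1
    rw [huv]
    exact lt_irrefl _
  have heq : x = ((q : ℕ) : RE P (inertiaField P)) ^ n * uR := by
    apply Subtype.ext
    apply Subtype.ext
    show ((x : inertiaField P) : Qb)
      = ((((q : ℕ) : RE P (inertiaField P)) : inertiaField P) : Qb) ^ n * u
    rw [hcoe]
    have hqn : (q : Qb) ^ n ≠ 0 := pow_ne_zero n (by exact_mod_cast hq.ne_zero)
    show ((x : inertiaField P) : Qb) = (q : Qb) ^ n * (((x : inertiaField P) : Qb) / (q : Qb) ^ n)
    field_simp
  rw [heq]
  exact associated_mul_unit_left _ uR huR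

/-- `q` is not a unit of `R_E`. -/
theorem not_isUnit_natCast_RE (hP : P.LiesOverPrime q) (E : IntermediateField ℚ Qb) :
    ¬ IsUnit ((q : ℕ) : RE P E) := by
  intro hu
  have hcoe : ((((q : ℕ) : RE P E) : E) : Qb) = (q : Qb) := by simp
  have h1 : ((q : ℕ) : RE P E) ∈ IsLocalRing.maximalIdeal (RE P E) := by
    rw [mem_maximalIdeal_RE_iff, hcoe]
    exact hP
  exact (IsLocalRing.mem_maximalIdeal _).mp h1 hu

/-- **`q` is a uniformiser of `R_E`** for the inertia field `E`. -/
theorem irreducible_natCast_inertiaField (hq : q.Prime) (hP : P.LiesOverPrime q) :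
    Irreducible ((q : ℕ) : RE P (inertiaField P)) := by
  haveI : IsDiscreteValuationRing (RE P (inertiaField P)) :=
    (goodField_inertiaField P q hq hP).dvr
  have hnu := not_isUnit_natCast_RE P q hP (inertiaField P)
  obtain ⟨ϖ, hϖ⟩ := IsDiscreteValuationRing.exists_irreducible (RE P (inertiaField P))
  obtain ⟨n, hn⟩ := associated_natCast_pow_inertiaField P q hq hP ϖ hϖ.ne_zero
  -- `n = 1`
  have hn1 : n = 1 := by
    rcases Nat.lt_or_ge n 1 with h0 | h1
    · have : n = 0 := by omega
      subst this
      rw [pow_zero] at hn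
      exact absurd (hn.symm.isUnit isUnit_one) hϖ.not_isUnit
    · rcases Nat.eq_or_lt_of_le h1 with h | h
      · exact h.symm
      · exfalso
        obtain ⟨m, rfl⟩ : ∃ m, n = m + 2 := ⟨n - 2, by omega⟩
        obtain ⟨u, hu⟩ := hn.symm
        -- `ϖ = q * (q^(m+1) * u)`
        have e : ϖ = ((q : ℕ) : RE P (inertiaField P)) *
            (((q : ℕ) : RE P (inertiaField P)) ^ (m + 1) * u) := by
          rw [← hu]
          ring
        rcases hϖ.isUnit_or_isUnit e with h2 | h2
        · exact hnu h2
        · have h3 : IsUnit (((q : ℕ) : RE P (inertiaField P)) ^ (m + 1)) :=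
            isUnit_of_mul_isUnit_left h2
          exact hnu ((isUnit_pow_iff (Nat.succ_ne_zero m)).mp h3)
  subst hn1
  rw [pow_one] at hn
  exact hn.irreducible hϖ

/-- The standing hypotheses of the MOD leaves at the inertia field, with `w = q`. -/
theorem setting_inertiaField (M : ℕ) (hq : q.Prime) (hqM : ¬ q ∣ M) (hM : M ≠ 0)
    (hP : P.LiesOverPrime q) :
    Fermat.Agent.A2.Mod.Setting P (inertiaField P) M q
      ((q : ℕ) : RE P (inertiaField P)) where
  q_prime := hq
  q_not_dvd := hqM
  M_ne_zero := hM
  lies_over := hP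
  dvr := (goodField_inertiaField P q hq hP).dvr
  unif := irreducible_natCast_inertiaField P q hq hP

end Fermat.Agent.Ribet.H868
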