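import Fermat.Agent.Ribet.H868.CoreOutQ
import Fermat.Agent.Ribet.H967.TameReduce
import Fermat.Agent.Ribet.H472.DictPure

/-!
# RIBET row 38, WALL-p, CoreOut: TAME from the dictionary (helper868)

* `dictPureQAt_of_dictPure` : `H704.CoreOut.DictPureStatement` is the case `m = q = p` of the
  two-prime dictionary `H868.DictPureQAt`;
* `slopeProp_of_dictPure` : `H884.SlopeProp p M' A x` for every `p`-torsion class `x` of
  `J₀(p M')` fixed by the inertia group at `A` (`p ≥ 5`);
* `tameFixed_of_dictPure : DictPureStatement → H967.Tame.TameFixedStatement`;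
* **`tame_of_dictPure : DictPureStatement → H704.CoreOut.TameStatement`**
  (with `H967.Tame.tame_of_fixed`);
* **`tameFixed`, `tame : H704.CoreOut.TameStatement`** UNCONDITIONAL (`H472.dictPure`).
-/

set_option autoImplicit false
set_option linter.unusedSectionVars false
set_option linter.style.haveILetI false
set_option synthInstance.maxHeartbeats 400000
set_option maxHeartbeats 1600000

noncomputable section

namespace Fermat.Agent.Ribet.H868

open AlgebraicCurve ModularCurve HahnSeries
open Fermat.Agent.S24 Fermat.Agent.Ribet.H884 Fermat.Agent.Ribet.H158.WallQ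
open Fermat.Agent.Ribet.Spec Fermat.Agent.Ribet.H944.Wall
open Fermat.Agent.Ribet.H704 Fermat.Agent.Ribet.H704.CoreOut

/-- The one-prime dictionary is the case `m = q = p` of the two-prime dictionary. -/
theorem dictPureQAt_of_dictPure (h : DictPureStatement) (p M' : ℕ) [NeZero M'] [NeZero p]
    [NeZero (p * M')] (hp : p.Prime) (hpM : ¬ p ∣ M') (A : ValuationSubring Kbar)
    (hA : A.LiesOverPrime p) : DictPureQAt p p M' A :=
  fun E w hS hE G G' hG hser hpure => h p M' hp hpM A hA E w hS hE G G' hG hser hpure

/-- **TAME core**: `SlopeProp` for the `p`-torsion classes fixed by inertia, from the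
dictionary. -/
theorem slopeProp_of_dictPure (h : DictPureStatement) (p M' : ℕ) [NeZero M'] [NeZero p]
    [NeZero (p * M')] (hp : p.Prime) (hp5 : 5 ≤ p) (hpM : ¬ p ∣ M')
    (A : ValuationSubring Kbar) (hA : A.LiesOverPrime p) (x : JZero (p * M'))
    (hx : p • x = 0) (hfix : ∀ σ ∈ A.inertiaSubgroupIn ℚ, σ • x = x) :
    SlopeProp p M' A x := by
  have hcop : Nat.Coprime 12 p := coprime_twelve868 hp hp5
  obtain ⟨f, D, G, n, a, b, h1, h2, h3, -, h5, h6, h7⟩ :=
    slopePropQM_of_dict p p M' hp.pos hcop hp hpM
      ⟨fun h3 => by omega, fun h2 => by omega⟩ A hA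
      (dictPureQAt_of_dictPure h p M' hp hpM A hA) x hx hfix
  exact ⟨f, D, G, n, a, b, h1, h2, h3, (Nat.Prime.coprime_iff_not_dvd hp).mp h5.symm, h6, h7⟩

/-- **TAME, inertia-fixed core** (`H967.Tame.TameFixedStatement`), from the dictionary. -/
theorem tameFixed_of_dictPure (h : DictPureStatement) :
    Fermat.Agent.Ribet.H967.Tame.TameFixedStatement := by
  intro p M' _ _ _ hp hp5 hpM A hA S a _ x hx _ hfix
  exact slopeProp_of_dictPure h p M' hp hp5 hpM A hA x hx.1 hfix

/-- **TAME** (`H704.CoreOut.TameStatement`), from the dictionary. -/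
theorem tame_of_dictPure (h : DictPureStatement) : TameStatement :=
  Fermat.Agent.Ribet.H967.Tame.tame_of_fixed (tameFixed_of_dictPure h)

/-- **TAME, inertia-fixed core**, UNCONDITIONAL. -/
theorem tameFixed : Fermat.Agent.Ribet.H967.Tame.TameFixedStatement :=
  tameFixed_of_dictPure Fermat.Agent.Ribet.H472.dictPure

/-- **TAME** (`H704.CoreOut.TameStatement`, VERBATIM), UNCONDITIONAL. -/
theorem tame : TameStatement :=
  tame_of_dictPure Fermat.Agent.Ribet.H472.dictPure

end Fermat.Agent.Ribet.H868

end
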